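import Fermat.Agent.S56.GW.EC.Base.Act
import Fermat.Agent.S56.GW.EC.Mult.Hx

/-!
# S56, [GW-EC], cell [EC-BASE]: multiplicity counts along the Kummer long exact sequence
(prefix `s56eb_`)

`B` a finite group, `p ∤ #B`, `X` a `B`-module killed by `p`, `h_X(A) = Nat.card (X →+[B] A)`.

* `s56eb_count5` (pure algebra): for `B`-equivariant `M₀ --d--> V --f--> W` with `pV = 0`,
  `ker d = p M₀`, `ker f = im d`, `im f = W[p]` and a model `(Q, q)` of `M₀ / p`:
  `h_X(V) = h_X(Q) * h_X(W)`.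
* For a short exact sequence `E : 0 → T₁ → T₂ --p--> T₂ → 0` of `G`-`B`-bimodules (`T₂` smooth):
  `s56eb_les_H0 : h_X(H⁰ T₁) = h_X(H⁰ T₂)`,
  `s56eb_les_H1 : h_X(H¹ T₁) = h_X(Q) * h_X(H¹ T₂)` for a model `(Q, q)` of `H⁰(T₂)/p`,
  `s56eb_les_H2 : h_X(H² T₁) = h_X(Q') * h_X(H² T₂)` for a model `(Q', q')` of `H¹(T₂)/p`.
-/

set_option autoImplicit false
set_option linter.unusedSectionVars false

namespace Fermat.Agent.S56

open Fermat.Agent.S55

section Tors

variable (p : ℕ) {B : Type*} [Monoid B] (W : Type*) [AddCommGroup W] [DistribMulAction B W]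

/-- The `p`-torsion subgroup. -/
def s56eb_tors : AddSubgroup W where
  carrier := {w | p • w = 0}
  zero_mem' := smul_zero p
  add_mem' := by
    intro a b ha hb
    show p • (a + b) = 0
    rw [smul_add, ha, hb, add_zero]
  neg_mem' := by
    intro a ha
    show p • (-a) = 0
    rw [smul_neg, ha, neg_zero]

theorem s56eb_mem_tors {w : W} : w ∈ s56eb_tors p W ↔ p • w = 0 := Iff.rfl

theorem s56eb_smul_nsmul (b : B) (n : ℕ) (w : W) : b • (n • w) = n • (b • w) :=
  map_nsmul (DistribSMul.toAddMonoidHom W b) n w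

/-- The action of `B` on the `p`-torsion. -/
instance s56eb_tors.instAct : DistribMulAction B (s56eb_tors p W) where
  smul b w := ⟨b • (w : W), by
    show p • (b • (w : W)) = 0
    rw [← s56eb_smul_nsmul, (w.2 : p • (w : W) = 0), smul_zero]⟩
  one_smul w := Subtype.ext (one_smul B (w : W))
  mul_smul b b' w := Subtype.ext (mul_smul b b' (w : W))
  smul_zero b := Subtype.ext (smul_zero b)
  smul_add b w w' := Subtype.ext (smul_add b (w : W) (w' : W))

/-- The inclusion of the `p`-torsion as an equivariant map. -/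
def s56eb_tors.incl : s56eb_tors p W →+[B] W where
  toFun w := (w : W)
  map_smul' _ _ := rfl
  map_zero' := rfl
  map_add' _ _ := rfl

end Tors

section Count5

variable {B : Type} [Group B] [Finite B] {p : ℕ} [Fact p.Prime]
  (X : Type*) [AddCommGroup X] [DistribMulAction B X]

/-- **The five-term count.** -/
theorem s56eb_count5 (hpB : ¬ p ∣ Nat.card B) (hX : ∀ x : X, p • x = 0)
    {M₀ V W Q : Type*} [AddCommGroup M₀] [DistribMulAction B M₀] [AddCommGroup V]
    [DistribMulAction B V] [AddCommGroup W] [DistribMulAction B W] [AddCommGroup Q]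
    [DistribMulAction B Q]
    (hV : ∀ v : V, p • v = 0)
    (d : M₀ →+ V) (hde : ∀ (b : B) (m : M₀), d (b • m) = b • d m)
    (f : V →+ W) (hfe : ∀ (b : B) (v : V), f (b • v) = b • f v)
    (hd : ∀ m, d m = 0 → ∃ m', m = p • m')
    (hdf : ∀ v, f v = 0 ↔ ∃ m, d m = v)
    (hfW : ∀ w, p • w = 0 ↔ ∃ v, f v = w)
    (q : M₀ →+[B] Q) (hq : Function.Surjective q) (hker : ∀ m, q m = 0 ↔ ∃ m', m = p • m') :
    Nat.card (X →+[B] V) = Nat.card (X →+[B] Q) * Nat.card (X →+[B] W) := by
  -- `d` kills `ker q`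
  have hdq : ∀ m, q m = 0 → d m = 0 := by
    intro m hm
    obtain ⟨m', rfl⟩ := (hker m).1 hm
    rw [map_nsmul, hV]
  have hdq' : ∀ m m', q m = q m' → d m = d m' := by
    intro m m' h
    have h1 : q (m - m') = 0 := by rw [map_sub, h, sub_self]
    have h2 := hdq _ h1
    rwa [map_sub, sub_eq_zero] at h2
  -- the induced map `ι : Q → V`
  let s : Q → M₀ := Function.surjInv hq
  have hs : ∀ y, q (s y) = y := Function.surjInv_eq hq
  let ι : Q →+ V :=
    { toFun := fun y => d (s y)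
      map_zero' := by
        show d (s 0) = 0
        exact hdq _ (hs 0)
      map_add' := fun y y' => by
        show d (s (y + y')) = d (s y) + d (s y')
        rw [← map_add]
        apply hdq'
        rw [hs, map_add, hs, hs] }
  have hιq : ∀ m, ι (q m) = d m := fun m => hdq' _ _ (hs (q m))
  have hιe : ∀ (b : B) (y : Q), ι (b • y) = b • ι y := by
    intro b y
    obtain ⟨m, rfl⟩ := hq y
    rw [← map_smul, hιq, hιq, hde]
  have hιinj : Function.Injective ι := by
    rw [injective_iff_map_eq_zero]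
    intro y hy
    obtain ⟨m, rfl⟩ := hq y
    rw [hιq] at hy
    exact (hker m).2 (hd m hy)
  have hιr : ∀ v, f v = 0 ↔ ∃ y, ι y = v := by
    intro v
    rw [hdf]
    constructor
    · rintro ⟨m, rfl⟩
      exact ⟨q m, hιq m⟩
    · rintro ⟨y, rfl⟩
      obtain ⟨m, rfl⟩ := hq y
      exact ⟨m, (hιq m).symm⟩
  have h1 := s56emg_hx_ker_range (p := p) X hpB hV f hfe ι hιe hιinj hιr
    ((s56eb_tors.incl p W : s56eb_tors p W →+[B] W) : s56eb_tors p W →+ W)
    (fun b r => rfl) (fun a b h => Subtype.ext h)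
    (fun w => by
      rw [← hfW]
      constructor
      · intro h
        exact ⟨⟨w, h⟩, rfl⟩
      · rintro ⟨r, rfl⟩
        exact r.2)
  have h2 := s56emg_hx_torsion (p := p) X hX (s56eb_tors.incl (B := B) p W)
    (fun a b h => Subtype.ext h)
    (fun t => by
      constructor
      · intro h
        exact ⟨⟨t, h⟩, rfl⟩
      · rintro ⟨r, rfl⟩
        exact r.2)
  rw [h1, h2]

end Count5

section Les

attribute [local instance] s56eb_actH0 s56eb_actH1 s56eb_actH2

variable {G : Type} [Group G] (L : LevelSys G) {B : Type} [Group B] [Finite B] {p : ℕ}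
  [Fact p.Prime] (X : Type*) [AddCommGroup X] [DistribMulAction B X]
  {T₁ T₂ : Type}
  [AddCommGroup T₁] [DistribMulAction G T₁] [DistribMulAction B T₁] [SMulCommClass G B T₁]
  [AddCommGroup T₂] [DistribMulAction G T₂] [DistribMulAction B T₂] [SMulCommClass G B T₂]
  (E : LvSES G T₁ T₂ T₂)

theorem s56eb_H1_nsmul_of_coef (n : ℕ) {T : Type*} [AddCommGroup T] [DistribMulAction G T]
    (m : LvMor L T L T) (hf : m.f = MonoidHom.id G) (hm : ∀ t, m.φ t = n • t) (x : lvH1 L T) :
    m.H1 x = n • x := by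
  obtain ⟨c, rfl⟩ := lvH1mk_surjective x
  rw [LvMor.H1_mk, ← map_nsmul]
  congr 1
  apply Subtype.ext
  funext g
  show m.φ ((c : G → T) (m.f g)) = n • (c : G → T) g
  rw [hf, hm]
  rfl

theorem s56eb_H2_nsmul_of_coef (n : ℕ) {T : Type*} [AddCommGroup T] [DistribMulAction G T]
    (m : LvMor L T L T) (hf : m.f = MonoidHom.id G) (hm : ∀ t, m.φ t = n • t) (x : lvH2 L T) :
    m.H2 x = n • x := by
  obtain ⟨c, rfl⟩ := lvH2mk_surjective x
  rw [LvMor.H2_mk, ← map_nsmul]
  congr 1
  apply Subtype.ext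
  funext q
  show m.φ ((c : G × G → T) (m.f q.1, m.f q.2)) = n • (c : G × G → T) q
  rw [hf, hm]
  rfl

theorem s56eb_H1_killed {T : Type*} [AddCommGroup T] [DistribMulAction G T]
    (hT : ∀ t : T, p • t = 0) (x : lvH1 L T) : p • x = 0 := by
  obtain ⟨c, rfl⟩ := lvH1mk_surjective x
  rw [← map_nsmul]
  have : p • c = 0 := by
    apply Subtype.ext
    funext g
    exact hT _
  rw [this, map_zero]

theorem s56eb_H2_killed {T : Type*} [AddCommGroup T] [DistribMulAction G T]
    (hT : ∀ t : T, p • t = 0) (x : lvH2 L T) : p • x = 0 := by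
  obtain ⟨c, rfl⟩ := lvH2mk_surjective x
  rw [← map_nsmul]
  have : p • c = 0 := by
    apply Subtype.ext
    funext q
    exact hT _
  rw [this, map_zero]

variable (hπp : ∀ t, E.π t = p • t) (hi : ∀ (b : B) (t : T₁), E.i (b • t) = b • E.i t)

include hπp in
theorem s56eb_π_smul (b : B) (t : T₂) : E.π (b • t) = b • E.π t := by
  rw [hπp, hπp, s56eb_smul_nsmul]

include hπp in
theorem s56eb_T₁_killed (t : T₁) : p • t = 0 := by
  apply E.i_inj
  rw [map_nsmul, map_zero, ← hπp]
  exact E.π_i t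

include L hπp hi in
/-- `h_X(H⁰(T₁)) = h_X(H⁰(T₂))`. -/
theorem s56eb_les_H0 (hX : ∀ x : X, p • x = 0) :
    Nat.card (X →+[B] lvH0 (G := G) T₁) = Nat.card (X →+[B] lvH0 (G := G) T₂) := by
  let ι : lvH0 (G := G) T₁ →+[B] lvH0 (G := G) T₂ :=
    { toFun := (E.mi L).H0
      map_smul' := fun b x => s56eb_mi_H0_smul E L hi b x
      map_zero' := map_zero _
      map_add' := map_add _ }
  have hιinj : Function.Injective ι := by
    intro x y h
    apply Subtype.ext
    apply E.i_inj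
    exact congrArg Subtype.val h
  refine (s56emg_hx_torsion (p := p) X hX ι hιinj ?_).symm
  intro t
  constructor
  · intro h
    have h1 : E.π (t : T₂) = 0 := by
      rw [hπp]
      exact congrArg Subtype.val h
    obtain ⟨a, ha⟩ := (E.exact _).1 h1
    have hinv : ∀ g : G, g • a = a := by
      intro g
      apply E.i_inj
      rw [E.i_equiv, ha]
      exact t.2 g
    exact ⟨⟨a, hinv⟩, Subtype.ext ha⟩
  · rintro ⟨k, rfl⟩
    apply Subtype.ext
    show p • E.i (k : T₁) = 0
    rw [← map_nsmul, s56eb_T₁_killed E hπp, map_zero]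

include hπp hi in
/-- `h_X(H¹(T₁)) = h_X(Q) * h_X(H¹(T₂))` for a model `(Q, q)` of `H⁰(T₂) / p`. -/
theorem s56eb_les_H1 (hpB : ¬ p ∣ Nat.card B) (hX : ∀ x : X, p • x = 0) (hB : L.IsSmooth T₂)
    {Q : Type*} [AddCommGroup Q] [DistribMulAction B Q]
    (q : lvH0 (G := G) T₂ →+[B] Q) (hq : Function.Surjective q)
    (hker : ∀ m, q m = 0 ↔ ∃ m', m = p • m') :
    Nat.card (X →+[B] lvH1 L T₁) = Nat.card (X →+[B] Q) * Nat.card (X →+[B] lvH1 L T₂) := by
  have hπe := s56eb_π_smul E hπp (B := B)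
  refine s56eb_count5 X hpB hX (s56eb_H1_killed L (s56eb_T₁_killed E hπp))
    (E.δ0 L hB) (fun b m => s56eb_δ0_smul E L hi hπe hB b m)
    (E.mi L).H1 (fun b v => s56eb_mi_H1_smul E L hi b v) ?_ ?_ ?_ q hq hker
  · intro m hm
    obtain ⟨b, hb⟩ := (E.exact_H0C L hB m).1 hm
    refine ⟨b, ?_⟩
    rw [← hb]
    apply Subtype.ext
    show E.π (b : T₂) = p • (b : T₂)
    exact hπp _
  · intro v
    exact E.exact_H1A L hB v
  · intro w
    rw [← s56eb_H1_nsmul_of_coef L p (E.mπ L) rfl hπp w]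
    exact E.exact_H1B L hB w

include hπp hi in
/-- `h_X(H²(T₁)) = h_X(Q') * h_X(H²(T₂))` for a model `(Q', q')` of `H¹(T₂) / p`. -/
theorem s56eb_les_H2 (hpB : ¬ p ∣ Nat.card B) (hX : ∀ x : X, p • x = 0) (hB : L.IsSmooth T₂)
    {Q : Type*} [AddCommGroup Q] [DistribMulAction B Q]
    (q : lvH1 L T₂ →+[B] Q) (hq : Function.Surjective q)
    (hker : ∀ m, q m = 0 ↔ ∃ m', m = p • m') :
    Nat.card (X →+[B] lvH2 L T₁) = Nat.card (X →+[B] Q) * Nat.card (X →+[B] lvH2 L T₂) := by
  have hπe := s56eb_π_smul E hπp (B := B)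
  refine s56eb_count5 X hpB hX (s56eb_H2_killed L (s56eb_T₁_killed E hπp))
    (E.δ1 L hB) (fun b m => s56eb_δ1_smul E L hi hπe hB b m)
    (E.mi L).H2 (fun b v => s56eb_mi_H2_smul E L hi b v) ?_ ?_ ?_ q hq hker
  · intro m hm
    obtain ⟨b, hb⟩ := (E.exact_H1C L hB m).1 hm
    refine ⟨b, ?_⟩
    rw [← hb]
    exact s56eb_H1_nsmul_of_coef L p (E.mπ L) rfl hπp b
  · intro v
    exact E.exact_H2A L hB v
  · intro w
    rw [← s56eb_H2_nsmul_of_coef L p (E.mπ L) rfl hπp w]
    exact E.exact_H2B L hB w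

end Les

end Fermat.Agent.S56
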