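import Fermat.Agent.S55.Level.LES

/-!
# S56, [GW-EC], cell [EC-BASE]: coefficient actions on the level cohomology (prefix `s56eb_`)

`G` a group with a level system `L`, `T` a `G`-module, `B` a monoid acting on `T` by additive
endomorphisms commuting with `G` (`[DistribMulAction B T] [SMulCommClass G B T]`).  Then `B` acts on
`lvH0 T`, `lvH1 L T`, `lvH2 L T` through the coefficients:

* `s56eb_actH0`, `s56eb_actH1 L`, `s56eb_actH2 L` : the three `DistribMulAction B _` (plain `def`s:
  activate them with `attribute [local instance]`);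
* `s56eb_smul_H1mk`, `s56eb_smul_H2mk`, `s56eb_smul_H0_coe` : the formulas on representatives;
* `s56eb_mor_H0/H1/H2_smul` : a morphism `m : LvMor L T LH T'` whose coefficient map commutes
  with `B` induces `B`-equivariant maps;
* `s56eb_δ0_smul`, `s56eb_δ1_smul` : the connecting maps of an `LvSES` of `G`-`B`-bimodules with
  `B`-equivariant maps are `B`-equivariant.
-/

set_option autoImplicit false
set_option linter.unusedSectionVars false

namespace Fermat.Agent.S56

open Fermat.Agent.S55

section Act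

variable {G : Type*} [Group G] (L : LevelSys G) {B : Type*} [Monoid B]
  (T : Type*) [AddCommGroup T] [DistribMulAction G T] [DistribMulAction B T] [SMulCommClass G B T]

/-- The coefficient endomorphism attached to `b : B`. -/
def s56eb_coef (b : B) : LvMor L T L T :=
  LvMor.ofCoeff L (DistribSMul.toAddMonoidHom T b) (fun g t => (smul_comm g b t).symm)

theorem s56eb_coef_φ (b : B) (t : T) : (s56eb_coef L T b).φ t = b • t := rfl

theorem s56eb_coef_pull1 (b : B) (c : G → T) (g : G) : (s56eb_coef L T b).pull1 c g = b • c g := rfl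

theorem s56eb_coef_pull2 (b : B) (c : G × G → T) (q : G × G) :
    (s56eb_coef L T b).pull2 c q = b • c q := rfl

/-- The action of `B` on the invariants. -/
@[reducible] def s56eb_actH0 : DistribMulAction B (lvH0 (G := G) T) where
  smul b x := ⟨b • (x : T), fun g => by
    have hx : g • (x : T) = x := x.2 g
    show g • b • (x : T) = b • (x : T)
    rw [smul_comm, hx]⟩
  one_smul x := Subtype.ext (one_smul B (x : T))
  mul_smul b b' x := Subtype.ext (mul_smul b b' (x : T))
  smul_zero b := Subtype.ext (smul_zero b)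
  smul_add b x y := Subtype.ext (smul_add b (x : T) (y : T))

/-- The action of `B` on `H¹`. -/
@[reducible] def s56eb_actH1 : DistribMulAction B (lvH1 L T) where
  smul b x := (s56eb_coef L T b).H1 x
  one_smul x := by
    obtain ⟨c, rfl⟩ := lvH1mk_surjective x
    show lvH1mk L T ((s56eb_coef L T (1 : B)).Z1 c) = lvH1mk L T c
    congr 1
    apply Subtype.ext
    funext g
    exact one_smul B _
  mul_smul b b' x := by
    obtain ⟨c, rfl⟩ := lvH1mk_surjective x
    show lvH1mk L T ((s56eb_coef L T (b * b')).Z1 c) =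
      lvH1mk L T ((s56eb_coef L T b).Z1 ((s56eb_coef L T b').Z1 c))
    congr 1
    apply Subtype.ext
    funext g
    exact mul_smul b b' _
  smul_zero b := map_zero _
  smul_add b x y := map_add _ x y

/-- The action of `B` on `H²`. -/
@[reducible] def s56eb_actH2 : DistribMulAction B (lvH2 L T) where
  smul b x := (s56eb_coef L T b).H2 x
  one_smul x := by
    obtain ⟨c, rfl⟩ := lvH2mk_surjective x
    show lvH2mk L T ((s56eb_coef L T (1 : B)).Z2 c) = lvH2mk L T c
    congr 1
    apply Subtype.ext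
    funext q
    exact one_smul B _
  mul_smul b b' x := by
    obtain ⟨c, rfl⟩ := lvH2mk_surjective x
    show lvH2mk L T ((s56eb_coef L T (b * b')).Z2 c) =
      lvH2mk L T ((s56eb_coef L T b).Z2 ((s56eb_coef L T b').Z2 c))
    congr 1
    apply Subtype.ext
    funext q
    exact mul_smul b b' _
  smul_zero b := map_zero _
  smul_add b x y := map_add _ x y

end Act

section Formulas

attribute [local instance] s56eb_actH0 s56eb_actH1 s56eb_actH2

variable {G : Type*} [Group G] (L : LevelSys G) {B : Type*} [Monoid B]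
  {T : Type*} [AddCommGroup T] [DistribMulAction G T] [DistribMulAction B T] [SMulCommClass G B T]

theorem s56eb_smul_H0_coe (b : B) (x : lvH0 (G := G) T) : ((b • x : lvH0 (G := G) T) : T) = b • (x : T) :=
  rfl

theorem s56eb_smul_H1_def (b : B) (x : lvH1 L T) : b • x = (s56eb_coef L T b).H1 x := rfl

theorem s56eb_smul_H2_def (b : B) (x : lvH2 L T) : b • x = (s56eb_coef L T b).H2 x := rfl

theorem s56eb_smul_H1mk (b : B) (c : lvZ1 L T) :
    b • lvH1mk L T c = lvH1mk L T ((s56eb_coef L T b).Z1 c) := rfl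

theorem s56eb_smul_H2mk (b : B) (c : lvZ2 L T) :
    b • lvH2mk L T c = lvH2mk L T ((s56eb_coef L T b).Z2 c) := rfl

variable {L}
variable {H : Type*} [Group H] {LH : LevelSys H}
  {T' : Type*} [AddCommGroup T'] [DistribMulAction H T'] [DistribMulAction B T'] [SMulCommClass H B T']

/-- A morphism commuting with `B` on the coefficients is `B`-equivariant on `H⁰`. -/
theorem s56eb_mor_H0_smul (m : LvMor L T LH T') (hm : ∀ (b : B) (t : T), m.φ (b • t) = b • m.φ t)
    (b : B) (x : lvH0 (G := G) T) : m.H0 (b • x) = b • m.H0 x :=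
  Subtype.ext (hm b (x : T))

/-- A morphism commuting with `B` on the coefficients is `B`-equivariant on `H¹`. -/
theorem s56eb_mor_H1_smul (m : LvMor L T LH T') (hm : ∀ (b : B) (t : T), m.φ (b • t) = b • m.φ t)
    (b : B) (x : lvH1 L T) : m.H1 (b • x) = b • m.H1 x := by
  obtain ⟨c, rfl⟩ := lvH1mk_surjective x
  show lvH1mk LH T' (m.Z1 ((s56eb_coef L T b).Z1 c)) =
    lvH1mk LH T' ((s56eb_coef LH T' b).Z1 (m.Z1 c))
  congr 1
  apply Subtype.ext
  funext h
  exact hm b _

/-- A morphism commuting with `B` on the coefficients is `B`-equivariant on `H²`. -/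
theorem s56eb_mor_H2_smul (m : LvMor L T LH T') (hm : ∀ (b : B) (t : T), m.φ (b • t) = b • m.φ t)
    (b : B) (x : lvH2 L T) : m.H2 (b • x) = b • m.H2 x := by
  obtain ⟨c, rfl⟩ := lvH2mk_surjective x
  show lvH2mk LH T' (m.Z2 ((s56eb_coef L T b).Z2 c)) =
    lvH2mk LH T' ((s56eb_coef LH T' b).Z2 (m.Z2 c))
  congr 1
  apply Subtype.ext
  funext q
  exact hm b _

end Formulas

section Connecting

attribute [local instance] s56eb_actH0 s56eb_actH1 s56eb_actH2

variable {G : Type*} [Group G] {B : Type*} [Monoid B]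
  {A₁ A₂ A₃ : Type*}
  [AddCommGroup A₁] [DistribMulAction G A₁] [DistribMulAction B A₁] [SMulCommClass G B A₁]
  [AddCommGroup A₂] [DistribMulAction G A₂] [DistribMulAction B A₂] [SMulCommClass G B A₂]
  [AddCommGroup A₃] [DistribMulAction G A₃] [DistribMulAction B A₃] [SMulCommClass G B A₃]
  (E : LvSES G A₁ A₂ A₃) (L : LevelSys G)
  (hi : ∀ (b : B) (a : A₁), E.i (b • a) = b • E.i a)
  (hπ : ∀ (b : B) (a : A₂), E.π (b • a) = b • E.π a)

/-- The endomorphism of the short exact sequence attached to `b : B`. -/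
def s56eb_sesMor (b : B) : LvSESMor E L E L where
  mA := s56eb_coef L A₁ b
  mB := s56eb_coef L A₂ b
  mC := s56eb_coef L A₃ b
  fAB := rfl
  fBC := rfl
  comm_i := fun a => (hi b a).symm
  comm_π := fun a => (hπ b a).symm

include hi hπ in
/-- `δ⁰` is `B`-equivariant. -/
theorem s56eb_δ0_smul (hB : L.IsSmooth A₂) (b : B) (c : lvH0 (G := G) A₃) :
    E.δ0 L hB (b • c) = b • E.δ0 L hB c :=
  ((s56eb_sesMor E L hi hπ b).δ0_comm hB hB c).symm

include hi hπ in
/-- `δ¹` is `B`-equivariant. -/
theorem s56eb_δ1_smul (hB : L.IsSmooth A₂) (b : B) (x : lvH1 L A₃) :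
    E.δ1 L hB (b • x) = b • E.δ1 L hB x :=
  ((s56eb_sesMor E L hi hπ b).δ1_comm hB hB x).symm

include hi in
theorem s56eb_mi_H0_smul (b : B) (x : lvH0 (G := G) A₁) : (E.mi L).H0 (b • x) = b • (E.mi L).H0 x :=
  s56eb_mor_H0_smul (E.mi L) hi b x

include hi in
theorem s56eb_mi_H1_smul (b : B) (x : lvH1 L A₁) : (E.mi L).H1 (b • x) = b • (E.mi L).H1 x :=
  s56eb_mor_H1_smul (E.mi L) hi b x

include hi in
theorem s56eb_mi_H2_smul (b : B) (x : lvH2 L A₁) : (E.mi L).H2 (b • x) = b • (E.mi L).H2 x :=
  s56eb_mor_H2_smul (E.mi L) hi b x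

include hπ in
theorem s56eb_mπ_H0_smul (b : B) (x : lvH0 (G := G) A₂) : (E.mπ L).H0 (b • x) = b • (E.mπ L).H0 x :=
  s56eb_mor_H0_smul (E.mπ L) hπ b x

include hπ in
theorem s56eb_mπ_H1_smul (b : B) (x : lvH1 L A₂) : (E.mπ L).H1 (b • x) = b • (E.mπ L).H1 x :=
  s56eb_mor_H1_smul (E.mπ L) hπ b x

include hπ in
theorem s56eb_mπ_H2_smul (b : B) (x : lvH2 L A₂) : (E.mπ L).H2 (b • x) = b • (E.mπ L).H2 x :=
  s56eb_mor_H2_smul (E.mπ L) hπ b x

end Connecting

end Fermat.Agent.S56
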