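import Mathlib

/-!
# S56, [GW-EC], cell [EC-BASE]: the module `Hom_B(X, T)` (prefix `s56eb_`)

`B` a monoid, `X`, `T` additive groups with `B`-actions.  `s56eb_HomB B X T` is the additive group
of `B`-equivariant additive maps `X → T` (an `AddSubgroup (X →+ T)`, in bijection with Mathlib's
`X →+[B] T`: `s56eb_homBEquiv`).  If a monoid `G` acts on `T` commuting with `B`, then `G` acts on
`s56eb_HomB B X T` through the values: `(g • Φ) x = g • Φ x`.

`s56eb_h B X A = Nat.card (X →+[B] A)` is the multiplicity count of the cell.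

Mathlib only.
-/

set_option autoImplicit false
set_option linter.unusedSectionVars false
set_option linter.unusedVariables false

namespace Fermat.Agent.S56

section Defs

variable (B : Type*) [Monoid B] (X : Type*) [AddCommGroup X] [DistribMulAction B X]
  (T : Type*) [AddCommGroup T] [DistribMulAction B T]

/-- The `B`-equivariant additive maps, as an additive subgroup of `X →+ T`. -/
def s56eb_homB : AddSubgroup (X →+ T) where
  carrier := {Φ | ∀ (b : B) (x : X), Φ (b • x) = b • Φ x}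
  zero_mem' := fun b x => by simp
  add_mem' := by
    intro Φ Ψ hΦ hΨ b x
    simp only [AddMonoidHom.add_apply, hΦ b x, hΨ b x, smul_add]
  neg_mem' := by
    intro Φ hΦ b x
    simp only [AddMonoidHom.neg_apply, hΦ b x, smul_neg]

/-- `Hom_B(X, T)`. -/
abbrev s56eb_HomB : Type _ := ↥(s56eb_homB B X T)

/-- The multiplicity count `h_X(T) = #Hom_B(X, T)`. -/
noncomputable def s56eb_h : ℕ := Nat.card (X →+[B] T)

variable {B X T}

theorem s56eb_mem_homB {Φ : X →+ T} :
    Φ ∈ s56eb_homB B X T ↔ ∀ (b : B) (x : X), Φ (b • x) = b • Φ x := Iff.rfl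

instance s56eb_HomB.instFunLike : FunLike (s56eb_HomB B X T) X T :=
  ⟨fun Φ => (Φ : X →+ T), fun Φ Ψ h => Subtype.ext (DFunLike.coe_injective h)⟩

instance s56eb_HomB.instAddMonoidHomClass : AddMonoidHomClass (s56eb_HomB B X T) X T where
  map_add Φ := map_add (Φ : X →+ T)
  map_zero Φ := map_zero (Φ : X →+ T)

theorem s56eb_HomB.coe_apply (Φ : s56eb_HomB B X T) (x : X) : (Φ : X →+ T) x = Φ x := rfl

theorem s56eb_HomB.map_smul (Φ : s56eb_HomB B X T) (b : B) (x : X) : Φ (b • x) = b • Φ x :=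
  Φ.2 b x

@[ext] theorem s56eb_HomB.ext {Φ Ψ : s56eb_HomB B X T} (h : ∀ x, Φ x = Ψ x) : Φ = Ψ :=
  DFunLike.ext _ _ h

@[simp] theorem s56eb_HomB.add_apply (Φ Ψ : s56eb_HomB B X T) (x : X) : (Φ + Ψ) x = Φ x + Ψ x := rfl
@[simp] theorem s56eb_HomB.zero_apply (x : X) : (0 : s56eb_HomB B X T) x = 0 := rfl
@[simp] theorem s56eb_HomB.neg_apply (Φ : s56eb_HomB B X T) (x : X) : (-Φ) x = -Φ x := rfl
@[simp] theorem s56eb_HomB.sub_apply (Φ Ψ : s56eb_HomB B X T) (x : X) : (Φ - Ψ) x = Φ x - Ψ x := rfl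

/-- Constructor. -/
def s56eb_HomB.mk' (Φ : X →+ T) (h : ∀ (b : B) (x : X), Φ (b • x) = b • Φ x) : s56eb_HomB B X T :=
  ⟨Φ, h⟩

@[simp] theorem s56eb_HomB.mk'_apply (Φ : X →+ T) (h : ∀ (b : B) (x : X), Φ (b • x) = b • Φ x)
    (x : X) : s56eb_HomB.mk' Φ h x = Φ x := rfl

variable (B X T)

/-- The bijection with Mathlib's `X →+[B] T`. -/
def s56eb_homBEquiv : s56eb_HomB B X T ≃ (X →+[B] T) where
  toFun Φ :=
    { toFun := fun x => Φ x
      map_smul' := fun b x => Φ.2 b x
      map_zero' := map_zero (Φ : X →+ T)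
      map_add' := map_add (Φ : X →+ T) }
  invFun F := ⟨(F : X →+ T), fun b x => map_smul F b x⟩
  left_inv _ := rfl
  right_inv _ := rfl

theorem s56eb_h_eq : s56eb_h B X T = Nat.card (s56eb_HomB B X T) :=
  (Nat.card_congr (s56eb_homBEquiv B X T)).symm

end Defs

section ActG

variable {B : Type*} [Monoid B] {X : Type*} [AddCommGroup X] [DistribMulAction B X]
  {T : Type*} [AddCommGroup T] [DistribMulAction B T]
  {G : Type*} [Monoid G] [DistribMulAction G T] [SMulCommClass G B T]

/-- The action of `G` on `Hom_B(X, T)` through the values. -/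
instance s56eb_HomB.instActG : DistribMulAction G (s56eb_HomB B X T) where
  smul g Φ := ⟨(DistribSMul.toAddMonoidHom T g).comp (Φ : X →+ T), fun b x => by
    have h : (Φ : X →+ T) (b • x) = b • (Φ : X →+ T) x := Φ.2 b x
    exact (congrArg (fun t => g • t) h).trans (smul_comm g b _)⟩
  one_smul Φ := by
    apply s56eb_HomB.ext
    intro x
    exact one_smul G (Φ x)
  mul_smul g h Φ := by
    apply s56eb_HomB.ext
    intro x
    exact mul_smul g h (Φ x)
  smul_zero g := by
    apply s56eb_HomB.ext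
    intro x
    exact smul_zero g
  smul_add g Φ Ψ := by
    apply s56eb_HomB.ext
    intro x
    exact smul_add g (Φ x) (Ψ x)

theorem s56eb_HomB.smul_apply (g : G) (Φ : s56eb_HomB B X T) (x : X) : (g • Φ) x = g • Φ x := rfl

end ActG

end Fermat.Agent.S56
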