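import Fermat.Agent.S55.Level.Cohomology

/-!
# S56, [GW-EC], cell [EC-BASE]: the coefficient modules `Fun(Δ, A)` (prefix `s56eb_`)

`π : G →* Δ`, `A` a `G`-module.  `s56eb_TF π A` is the group of functions `Δ → A` with

* the action of `G`: `(g • φ) δ = g • φ ((π g)⁻¹ * δ)` (`= Hom(ℤ[Δ], A)` with the conjugation
  action, i.e. the module coinduced from `ker π` when `π` is onto);
* the commuting right translation action of `Δ`: `(δ₀ • φ) δ = φ (δ * δ₀)`.

`s56eb_TF.map f` is the functoriality in `A`; `s56eb_TF.isSmooth`: smoothness for a level system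
when `Δ` is finite, `ker π` contains a level and `A` is smooth.

Also: transport of the level cohomology along equivariant isomorphisms of coefficient modules
(`s56eb_lvH1_congr`, `s56eb_lvH2_congr`, `s56eb_lvH0_congr`).
-/

set_option autoImplicit false
set_option linter.unusedSectionVars false

namespace Fermat.Agent.S56

open Fermat.Agent.S55

/-- The coefficient module `Fun(Δ, A)`. -/
def s56eb_TF {G : Type*} {Δ : Type*} [Group G] [Group Δ] (_π : G →* Δ) (A : Type*) : Type _ :=
  Δ → A

namespace s56eb_TF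

variable {G : Type*} {Δ : Type*} [Group G] [Group Δ] {π : G →* Δ}
  {A : Type*} [AddCommGroup A] [DistribMulAction G A]

instance : AddCommGroup (s56eb_TF π A) := inferInstanceAs (AddCommGroup (Δ → A))

instance : FunLike (s56eb_TF π A) Δ A := ⟨fun φ => φ, fun _ _ h => h⟩

@[ext] theorem ext {φ ψ : s56eb_TF π A} (h : ∀ δ, φ δ = ψ δ) : φ = ψ := DFunLike.ext _ _ h

/-- Constructor. -/
def mk (f : Δ → A) : s56eb_TF π A := f

@[simp] theorem mk_apply (f : Δ → A) (δ : Δ) : (mk f : s56eb_TF π A) δ = f δ := rfl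

@[simp] theorem add_apply (φ ψ : s56eb_TF π A) (δ : Δ) : (φ + ψ) δ = φ δ + ψ δ := rfl
@[simp] theorem zero_apply (δ : Δ) : (0 : s56eb_TF π A) δ = 0 := rfl
@[simp] theorem neg_apply (φ : s56eb_TF π A) (δ : Δ) : (-φ) δ = -φ δ := rfl
@[simp] theorem sub_apply (φ ψ : s56eb_TF π A) (δ : Δ) : (φ - ψ) δ = φ δ - ψ δ := rfl
@[simp] theorem nsmul_apply (n : ℕ) (φ : s56eb_TF π A) (δ : Δ) : (n • φ) δ = n • φ δ := rfl

/-- The action of `G`. -/
instance instActG : DistribMulAction G (s56eb_TF π A) where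
  smul g φ := mk fun δ => g • φ ((π g)⁻¹ * δ)
  one_smul φ := by
    ext δ
    show (1 : G) • φ ((π 1)⁻¹ * δ) = φ δ
    rw [map_one, inv_one, one_mul, one_smul]
  mul_smul g h φ := by
    ext δ
    show (g * h) • φ ((π (g * h))⁻¹ * δ) = g • h • φ ((π h)⁻¹ * ((π g)⁻¹ * δ))
    rw [map_mul, mul_inv_rev, mul_assoc, mul_smul]
  smul_zero g := by
    ext δ
    show g • (0 : A) = 0
    rw [smul_zero]
  smul_add g φ ψ := by
    ext δ
    show g • (φ ((π g)⁻¹ * δ) + ψ ((π g)⁻¹ * δ)) = _
    rw [smul_add]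
    rfl

theorem smulG_apply (g : G) (φ : s56eb_TF π A) (δ : Δ) : (g • φ) δ = g • φ ((π g)⁻¹ * δ) := rfl

/-- The right translation action of `Δ`. -/
instance instActΔ : DistribMulAction Δ (s56eb_TF π A) where
  smul δ₀ φ := mk fun δ => φ (δ * δ₀)
  one_smul φ := by
    ext δ
    show φ (δ * 1) = φ δ
    rw [mul_one]
  mul_smul a b φ := by
    ext δ
    show φ (δ * (a * b)) = φ (δ * a * b)
    rw [mul_assoc]
  smul_zero _ := rfl
  smul_add _ _ _ := rfl

theorem smulΔ_apply (δ₀ : Δ) (φ : s56eb_TF π A) (δ : Δ) : (δ₀ • φ) δ = φ (δ * δ₀) := rfl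

theorem smulB_apply (B : Subgroup Δ) (b : B) (φ : s56eb_TF π A) (δ : Δ) :
    (b • φ) δ = φ (δ * (b : Δ)) := rfl

instance instComm : SMulCommClass G Δ (s56eb_TF π A) where
  smul_comm g δ₀ φ := by
    ext δ
    show g • φ ((π g)⁻¹ * δ * δ₀) = g • φ ((π g)⁻¹ * (δ * δ₀))
    rw [mul_assoc]

/-- Smoothness. -/
theorem isSmooth (L : LevelSys G) [Finite Δ] (hπ : ∃ U ∈ L.levels, U ≤ π.ker)
    (hA : L.IsSmooth A) : L.IsSmooth (s56eb_TF π A) := by
  intro φ
  obtain ⟨U, hU, hUπ⟩ := hπ
  obtain ⟨W, hW, hWU, -, hfix⟩ := hA.exists_level L (Set.finite_range (φ : Δ → A)) hU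
  refine ⟨W, hW, fun w hw => ?_⟩
  ext δ
  have h1 : π w = 1 := MonoidHom.mem_ker.1 (hUπ (hWU hw))
  rw [smulG_apply, h1, inv_one, one_mul]
  exact hfix w hw _ ⟨δ, rfl⟩

section Map

variable {A' : Type*} [AddCommGroup A'] [DistribMulAction G A']

/-- Functoriality in the coefficients. -/
def map (f : A →+ A') : s56eb_TF π A →+ s56eb_TF π A' where
  toFun φ := mk fun δ => f (φ δ)
  map_zero' := by
    ext δ
    show f 0 = 0
    rw [map_zero]
  map_add' φ ψ := by
    ext δ
    show f (φ δ + ψ δ) = f (φ δ) + f (ψ δ)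
    rw [map_add]

@[simp] theorem map_apply (f : A →+ A') (φ : s56eb_TF π A) (δ : Δ) :
    (map f φ : s56eb_TF π A') δ = f (φ δ) := rfl

theorem map_smulG (f : A →+ A') (hf : ∀ (g : G) (a : A), f (g • a) = g • f a) (g : G)
    (φ : s56eb_TF π A) : map f (g • φ) = g • (map f φ : s56eb_TF π A') := by
  ext δ
  rw [map_apply, smulG_apply, smulG_apply, hf, map_apply]

theorem map_smulΔ (f : A →+ A') (δ₀ : Δ) (φ : s56eb_TF π A) :
    map f (δ₀ • φ) = δ₀ • (map f φ : s56eb_TF π A') := rfl

theorem map_injective (f : A →+ A') (hf : Function.Injective f) :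
    Function.Injective (map f : s56eb_TF π A →+ s56eb_TF π A') := by
  intro φ ψ h
  ext δ
  apply hf
  have := congrArg (fun χ : s56eb_TF π A' => χ δ) h
  exact this

theorem map_surjective (f : A →+ A') (hf : Function.Surjective f) :
    Function.Surjective (map f : s56eb_TF π A →+ s56eb_TF π A') := by
  intro ψ
  refine ⟨mk fun δ => (hf (ψ δ)).choose, ?_⟩
  ext δ
  exact (hf (ψ δ)).choose_spec

end Map

end s56eb_TF

section Congr

variable {G : Type*} [Group G] (L : LevelSys G) {T T' : Type*} [AddCommGroup T]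
  [DistribMulAction G T] [AddCommGroup T'] [DistribMulAction G T'] (e : T ≃+ T')
  (he : ∀ (g : G) (t : T), e (g • t) = g • e t)

include he in
theorem s56eb_symm_equivariant (g : G) (t : T') : e.symm (g • t) = g • e.symm t := by
  apply e.injective
  rw [he, e.apply_symm_apply, e.apply_symm_apply]

/-- Transport of `H¹` along an equivariant isomorphism of coefficient modules. -/
noncomputable def s56eb_lvH1_congr : lvH1 L T ≃+ lvH1 L T' where
  toFun := (LvMor.ofCoeff L (e : T →+ T') he).H1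
  invFun := (LvMor.ofCoeff L (e.symm : T' →+ T) (s56eb_symm_equivariant e he)).H1
  left_inv x := by
    obtain ⟨c, rfl⟩ := lvH1mk_surjective x
    show lvH1mk L T _ = lvH1mk L T c
    congr 1
    apply Subtype.ext
    funext g
    exact e.symm_apply_apply _
  right_inv x := by
    obtain ⟨c, rfl⟩ := lvH1mk_surjective x
    show lvH1mk L T' _ = lvH1mk L T' c
    congr 1
    apply Subtype.ext
    funext g
    exact e.apply_symm_apply _
  map_add' := map_add _

/-- Transport of `H²` along an equivariant isomorphism of coefficient modules. -/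
noncomputable def s56eb_lvH2_congr : lvH2 L T ≃+ lvH2 L T' where
  toFun := (LvMor.ofCoeff L (e : T →+ T') he).H2
  invFun := (LvMor.ofCoeff L (e.symm : T' →+ T) (s56eb_symm_equivariant e he)).H2
  left_inv x := by
    obtain ⟨c, rfl⟩ := lvH2mk_surjective x
    show lvH2mk L T _ = lvH2mk L T c
    congr 1
    apply Subtype.ext
    funext q
    exact e.symm_apply_apply _
  right_inv x := by
    obtain ⟨c, rfl⟩ := lvH2mk_surjective x
    show lvH2mk L T' _ = lvH2mk L T' c
    congr 1
    apply Subtype.ext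
    funext q
    exact e.apply_symm_apply _
  map_add' := map_add _

/-- Transport of `H⁰` along an equivariant isomorphism of coefficient modules. -/
noncomputable def s56eb_lvH0_congr : lvH0 (G := G) T ≃+ lvH0 (G := G) T' where
  toFun := (LvMor.ofCoeff L (e : T →+ T') he).H0
  invFun := (LvMor.ofCoeff L (e.symm : T' →+ T) (s56eb_symm_equivariant e he)).H0
  left_inv _ := Subtype.ext (e.symm_apply_apply _)
  right_inv _ := Subtype.ext (e.apply_symm_apply _)
  map_add' := map_add _

theorem s56eb_lvH1_congr_apply (x : lvH1 L T) :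
    s56eb_lvH1_congr L e he x = (LvMor.ofCoeff L (e : T →+ T') he).H1 x := rfl

theorem s56eb_lvH2_congr_apply (x : lvH2 L T) :
    s56eb_lvH2_congr L e he x = (LvMor.ofCoeff L (e : T →+ T') he).H2 x := rfl

theorem s56eb_lvH0_congr_apply (x : lvH0 (G := G) T) :
    s56eb_lvH0_congr L e he x = (LvMor.ofCoeff L (e : T →+ T') he).H0 x := rfl

end Congr

end Fermat.Agent.S56
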