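import Fermat.Agent.S56.GW.EC.Base.Tmu
import Fermat.Agent.S56.GW.EC.Base.TF
import Fermat.Agent.S55.Dual.ModulesES
import Fermat.Agent.S55.Level.LES

/-!
# S56, [GW-EC], cell [EC-BASE]: the Kummer sequence `0 → T_μ → T_E --p--> T_E → 0`
(prefix `s56eb_`)

`S ∋ p`, `ζ` a primitive `p`-th root of unity, `π : G_ℚ →* Δ`, `χ : Δ →* (ZMod p)ˣ` with
`χ ∘ π = cycloChar p`.  `T_E = s56eb_TF π (dm_ES S) = Fun(Δ, E_S)`.

* `s56eb_kumI` : `T_μ →+ T_E`, `φ ↦ (δ ↦ ζ ^ φ δ)`, equivariant for `G_ℚ` and for the right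
  translation action of `Δ`;
* `s56eb_kumSES` : the short exact sequence of `G_ℚ`-modules, with `π = (p • ·)`;
* `s56eb_TE_smooth` : `T_E` is smooth for `tl_levelsS S`.
-/

set_option autoImplicit false
set_option linter.unusedSectionVars false

open ExtCitation

namespace Fermat.Agent.S56

open Fermat.Agent.S55

local notation "GQ" => (AlgebraicClosure ℚ ≃ₐ[ℚ] AlgebraicClosure ℚ)
local notation "Qbar" => AlgebraicClosure ℚ

variable {p : ℕ} [Fact p.Prime] (S : Finset Nat.Primes) (hpS : pPrime p ∈ S) {ζ : Qbar}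
  (hζ : IsPrimitiveRoot ζ p) {Δ : Type} [Group Δ] (π : GQ →* Δ) (χ : Δ →* (ZMod p)ˣ)
  (hχ : ∀ g, χ (π g) = cycloChar p g)

/-- The coefficient module `T_E = Fun(Δ, E_S)`. -/
abbrev s56eb_TE : Type := s56eb_TF π (dm_ES S)

/-- `G_ℚ` acts on `ζ ^ c` through the cyclotomic character. -/
theorem s56eb_smul_pair (g : GQ) (c : ZMod p) :
    g • dm_pair (dm_zeta S hpS hζ) (dm_nsmul_zeta S hpS hζ) c =
      dm_pair (dm_zeta S hpS hζ) (dm_nsmul_zeta S hpS hζ) ((cycloChar p g : ZMod p) * c) := by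
  rw [mul_comm, dm_pair_mul, ← dm_smul_zeta, dm_pair_apply]
  exact map_nsmul (DistribSMul.toAddMonoidHom (dm_ES S) g) _ _

/-- The map `T_μ → T_E`, `φ ↦ (δ ↦ ζ ^ φ δ)`. -/
noncomputable def s56eb_kumI : s56eb_T p π χ →+ s56eb_TE S π where
  toFun φ := s56eb_TF.mk fun δ => dm_pair (dm_zeta S hpS hζ) (dm_nsmul_zeta S hpS hζ) (φ δ)
  map_zero' := by
    ext δ
    show dm_pair (dm_zeta S hpS hζ) (dm_nsmul_zeta S hpS hζ) 0 = 0
    rw [map_zero]
  map_add' φ ψ := by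
    ext δ
    show dm_pair (dm_zeta S hpS hζ) (dm_nsmul_zeta S hpS hζ) (φ δ + ψ δ) = _
    rw [map_add]
    rfl

theorem s56eb_kumI_apply (φ : s56eb_T p π χ) (δ : Δ) :
    s56eb_kumI S hpS hζ π χ φ δ = dm_pair (dm_zeta S hpS hζ) (dm_nsmul_zeta S hpS hζ) (φ δ) := rfl

include hχ in
theorem s56eb_kumI_smulG (g : GQ) (φ : s56eb_T p π χ) :
    s56eb_kumI S hpS hζ π χ (g • φ) = g • s56eb_kumI S hpS hζ π χ φ := by
  ext δ
  rw [s56eb_kumI_apply, s56eb_TF.smulG_apply, s56eb_kumI_apply, s56eb_smul_pair,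
    s56eb_T.smulG_apply, hχ]

theorem s56eb_kumI_smulΔ (δ₀ : Δ) (φ : s56eb_T p π χ) :
    s56eb_kumI S hpS hζ π χ (δ₀ • φ) = δ₀ • s56eb_kumI S hpS hζ π χ φ := rfl

theorem s56eb_kumI_smulB (B : Subgroup Δ) (b : B) (φ : s56eb_T p π χ) :
    s56eb_kumI S hpS hζ π χ (b • φ) = b • s56eb_kumI S hpS hζ π χ φ := rfl

theorem s56eb_kumI_injective : Function.Injective (s56eb_kumI S hpS hζ π χ) := by
  intro φ ψ h
  ext δ
  apply dm_pair_injective (dm_zeta S hpS hζ) (dm_nsmul_zeta S hpS hζ) (dm_zeta_ne_zero S hpS hζ)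
  have := congrArg (fun Φ : s56eb_TE S π => Φ δ) h
  exact this

/-- Multiplication by `p` on `T_E`. -/
noncomputable def s56eb_kumP : s56eb_TE S π →+ s56eb_TE S π := nsmulAddMonoidHom p

theorem s56eb_kumP_apply (φ : s56eb_TE S π) : s56eb_kumP (p := p) S π φ = p • φ := rfl

include hpS in
theorem s56eb_kumP_surjective : Function.Surjective (s56eb_kumP (p := p) S π) := by
  intro ψ
  have h : ∀ δ, ∃ y : dm_ES S, p • y = ψ δ := fun δ =>
    dm_ES_divisible S (p := pPrime p) hpS (ψ δ)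
  refine ⟨s56eb_TF.mk fun δ => (h δ).choose, ?_⟩
  ext δ
  exact (h δ).choose_spec

theorem s56eb_kum_exact (ψ : s56eb_TE S π) :
    s56eb_kumP (p := p) S π ψ = 0 ↔ ∃ φ : s56eb_T p π χ, s56eb_kumI S hpS hζ π χ φ = ψ := by
  constructor
  · intro h
    have h1 : ∀ δ, p • ψ δ = 0 := fun δ => congrArg (fun Φ : s56eb_TE S π => Φ δ) h
    have h2 : ∀ δ, ∃ c : ZMod p, ψ δ =
        dm_pair (dm_zeta S hpS hζ) (dm_nsmul_zeta S hpS hζ) c := fun δ =>
      dm_ES_torsion S hpS hζ (ψ δ) (h1 δ)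
    refine ⟨s56eb_T.mk fun δ => (h2 δ).choose, ?_⟩
    ext δ
    exact ((h2 δ).choose_spec).symm
  · rintro ⟨φ, rfl⟩
    ext δ
    show p • dm_pair (dm_zeta S hpS hζ) (dm_nsmul_zeta S hpS hζ) (φ δ) = 0
    rw [dm_pair_apply, smul_comm, dm_nsmul_zeta, smul_zero]

/-- **The Kummer sequence** `0 → T_μ → T_E --p--> T_E → 0`. -/
noncomputable def s56eb_kumSES : LvSES GQ (s56eb_T p π χ) (s56eb_TE S π) (s56eb_TE S π) where
  i := s56eb_kumI S hpS hζ π χ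
  π := s56eb_kumP S π
  i_equiv := s56eb_kumI_smulG S hpS hζ π χ hχ
  π_equiv := fun g φ => (map_nsmul (DistribSMul.toAddMonoidHom (s56eb_TE S π) g) p φ).symm
  i_inj := s56eb_kumI_injective S hpS hζ π χ
  π_surj := s56eb_kumP_surjective S hpS π
  exact := s56eb_kum_exact S hpS hζ π χ

theorem s56eb_kumSES_π (φ : s56eb_TE S π) :
    (s56eb_kumSES S hpS hζ π χ hχ).π φ = p • φ := rfl

theorem s56eb_kumSES_i_smulB (B : Subgroup Δ) (b : B) (φ : s56eb_T p π χ) :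
    (s56eb_kumSES S hpS hζ π χ hχ).i (b • φ) = b • (s56eb_kumSES S hpS hζ π χ hχ).i φ := rfl

/-- `T_E` is smooth. -/
theorem s56eb_TE_smooth [Finite Δ] (hπ : ∃ U ∈ (tl_levelsS S).levels, U ≤ π.ker) :
    (tl_levelsS S).IsSmooth (s56eb_TE S π) :=
  s56eb_TF.isSmooth (tl_levelsS S) hπ (dm_isSmooth_ES S)

end Fermat.Agent.S56
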