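import Fermat.Agent.S56.GW.EC.GDef
import Fermat.Agent.S56.GW.EC.Base.Act
import Fermat.Agent.S56.GW.EC.Base.HomB
import Fermat.Agent.S56.GW.EC.Base.Ses

/-!
# S56, [GW-EC], cell [EC-BASE]: the seams of the base case (prefix `s56eb_`)

Setting (`s56eg_IsLev p S π χ`): `π : G_ℚ →* Δ` a finite Galois level unramified outside `S`
with `χ ∘ π = cycloChar p`; `B ≤ Δ` with `p ∤ #B`; `X` a finite `B`-module killed by `p`;
`h_X(A) = Nat.card (X →+[B] A)`; `T_μ = s56eb_T p π χ`, `T_E = s56eb_TE S π = Fun(Δ, E_S)`;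
the `B`-actions on the level cohomology are those of `Base/Act.lean`.

* `s56eb_Fp p Y` : the permutation module `F_p[Y] = (Y → ZMod p)`, `(b • a) y = a (b⁻¹ • y)`;
* `s56eb_F1 p` : `F_p` with the trivial action;
* `s56eb_YI π = Δ ⧸ ⟨π c⟩` (the infinite places of the level field), `s56eb_YT S π =
  Σ q ∈ S, Δ ⧸ D_q` (its primes above `S`), `D_q` the image of the local Galois group;
* `s56eb_Fin_stmt` : `H¹(G_S, T_E)` (`= Cl_S(K)`) is finite;
* `s56eb_Unit_stmt` : Dirichlet's unit theorem in multiplicity form;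
* `s56eb_Low_stmt` : the lower bound for `H²(G_S, T_E)[p]` (`⊇ ker (Σ inv_v)`);
* `s56eb_Idem_stmt` : `lvHⁱ(Hom_B(X, T_μ)) ≅ Hom_B(X, lvHⁱ(T_μ))` in cardinal form.
-/

set_option autoImplicit false
set_option linter.unusedSectionVars false

open ExtCitation

namespace Fermat.Agent.S56

open Fermat.Agent.S55

local notation "GQ" => (AlgebraicClosure ℚ ≃ₐ[ℚ] AlgebraicClosure ℚ)

/-- The permutation module `F_p[Y]`. -/
def s56eb_Fp (p : ℕ) (Y : Type*) : Type _ := Y → ZMod p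

namespace s56eb_Fp

variable {p : ℕ} {Y : Type*}

instance : AddCommGroup (s56eb_Fp p Y) := inferInstanceAs (AddCommGroup (Y → ZMod p))

instance : FunLike (s56eb_Fp p Y) Y (ZMod p) := ⟨fun a => a, fun _ _ h => h⟩

@[ext] theorem ext {a a' : s56eb_Fp p Y} (h : ∀ y, a y = a' y) : a = a' := DFunLike.ext _ _ h

/-- Constructor. -/
def mk (f : Y → ZMod p) : s56eb_Fp p Y := f

@[simp] theorem mk_apply (f : Y → ZMod p) (y : Y) : (mk f : s56eb_Fp p Y) y = f y := rfl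
@[simp] theorem add_apply (a a' : s56eb_Fp p Y) (y : Y) : (a + a') y = a y + a' y := rfl
@[simp] theorem zero_apply (y : Y) : (0 : s56eb_Fp p Y) y = 0 := rfl

instance instAct {B : Type*} [Group B] [MulAction B Y] : DistribMulAction B (s56eb_Fp p Y) where
  smul b a := mk fun y => a (b⁻¹ • y)
  one_smul a := by
    ext y
    show a ((1 : B)⁻¹ • y) = a y
    rw [inv_one, one_smul]
  mul_smul b b' a := by
    ext y
    show a ((b * b')⁻¹ • y) = a (b'⁻¹ • b⁻¹ • y)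
    rw [mul_inv_rev, mul_smul]
  smul_zero _ := rfl
  smul_add _ _ _ := rfl

theorem smul_apply {B : Type*} [Group B] [MulAction B Y] (b : B) (a : s56eb_Fp p Y) (y : Y) :
    (b • a) y = a (b⁻¹ • y) := rfl

end s56eb_Fp

/-- `F_p` with the trivial action. -/
def s56eb_F1 (p : ℕ) : Type := ZMod p

namespace s56eb_F1

variable {p : ℕ}

instance : AddCommGroup (s56eb_F1 p) := inferInstanceAs (AddCommGroup (ZMod p))

instance instAct {B : Type*} [Monoid B] : DistribMulAction B (s56eb_F1 p) where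
  smul _ a := a
  one_smul _ := rfl
  mul_smul _ _ _ := rfl
  smul_zero _ := rfl
  smul_add _ _ _ := rfl

theorem smul_eq {B : Type*} [Monoid B] (b : B) (a : s56eb_F1 p) : b • a = a := rfl

/-- The identity `s56eb_F1 p ≃+ ZMod p`. -/
def equiv : s56eb_F1 p ≃+ ZMod p := AddEquiv.refl _

end s56eb_F1

section Sets

variable {Δ : Type} [Group Δ]

/-- The `Δ`-set of the infinite places of the level field: `Δ ⧸ ⟨π c⟩`. -/
abbrev s56eb_YI (π : GQ →* Δ) : Type := Δ ⧸ Subgroup.zpowers (π complexConjugation)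

/-- The `Δ`-set of the primes of the level field above `S`: `Σ q ∈ S, Δ ⧸ D_q`. -/
abbrev s56eb_YT (S : Finset Nat.Primes) (π : GQ →* Δ) : Type :=
  Σ q : {q : Nat.Primes // q ∈ S}, Δ ⧸ (π.comp (primeLocalToGlobal q.1)).range

end Sets

attribute [local instance] s56eb_actH0 s56eb_actH1 s56eb_actH2

/-- **Seam (FIN)**: `H¹(G_S, T_E) = Cl_S(K)` is finite. -/
def s56eb_Fin_stmt : Prop :=
  ∀ (p : ℕ) [Fact p.Prime], p ≠ 2 → ∀ (S : Finset Nat.Primes), pPrime p ∈ S →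
  ∀ (Δ : Type) [Group Δ] [Finite Δ] (π : GQ →* Δ) (χ : Δ →* (ZMod p)ˣ), s56eg_IsLev p S π χ →
    Finite (lvH1 (tl_levelsS S) (s56eb_TE S π))

/-- **Seam (UNIT)**: `m_X(E_S(K)/p) + m_X(F_p) = m_X(μ_p(K)) + m_X(F_p[S_f(K)]) + m_X(F_p[S_∞(K)])`,
for every model `(Q, q)` of `E_S(K)/p`, `E_S(K) = H⁰(G_ℚ, T_E)`. -/
def s56eb_Unit_stmt : Prop :=
  ∀ (p : ℕ) [Fact p.Prime], p ≠ 2 → ∀ (S : Finset Nat.Primes), pPrime p ∈ S →
  ∀ (Δ : Type) [Group Δ] [Finite Δ] (π : GQ →* Δ) (χ : Δ →* (ZMod p)ˣ), s56eg_IsLev p S π χ →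
  ∀ (B : Subgroup Δ), ¬ p ∣ Nat.card B →
  ∀ (X : Type) [AddCommGroup X] [DistribMulAction B X] [Finite X], (∀ x : X, p • x = 0) →
  ∀ (Q : Type) [AddCommGroup Q] [DistribMulAction B Q]
    (q : lvH0 (G := GQ) (s56eb_TE S π) →+[B] Q), Function.Surjective q →
    (∀ m, q m = 0 ↔ ∃ m', m = p • m') →
    Nat.card (X →+[B] Q) * Nat.card (X →+[B] s56eb_F1 p) =
      Nat.card (X →+[B] lvH0 (G := GQ) (s56eb_TE S π)) *
        (Nat.card (X →+[B] s56eb_Fp p (s56eb_YT S π)) *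
          Nat.card (X →+[B] s56eb_Fp p (s56eb_YI π)))

/-- **Seam (LOW)**: `m_X(F_p[S_f(K)]) ≤ m_X(H²(G_S, T_E)[p]) + m_X(F_p)`. -/
def s56eb_Low_stmt : Prop :=
  ∀ (p : ℕ) [Fact p.Prime], p ≠ 2 → ∀ (S : Finset Nat.Primes), pPrime p ∈ S →
  ∀ (Δ : Type) [Group Δ] [Finite Δ] (π : GQ →* Δ) (χ : Δ →* (ZMod p)ˣ), s56eg_IsLev p S π χ →
  ∀ (B : Subgroup Δ), ¬ p ∣ Nat.card B →
  ∀ (X : Type) [AddCommGroup X] [DistribMulAction B X] [Finite X], (∀ x : X, p • x = 0) →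
    Nat.card (X →+[B] s56eb_Fp p (s56eb_YT S π)) ≤
      Nat.card (X →+[B] lvH2 (tl_levelsS S) (s56eb_TE S π)) * Nat.card (X →+[B] s56eb_F1 p)

/-- **Seam (IDEM)**: `#lvHⁱ(Hom_B(X, T_μ)) = #Hom_B(X, lvHⁱ(T_μ))`, `i = 0, 1, 2`. -/
def s56eb_Idem_stmt : Prop :=
  ∀ (p : ℕ) [Fact p.Prime], p ≠ 2 → ∀ (S : Finset Nat.Primes), pPrime p ∈ S →
  ∀ (Δ : Type) [Group Δ] [Finite Δ] (π : GQ →* Δ) (χ : Δ →* (ZMod p)ˣ), s56eg_IsLev p S π χ →
  ∀ (B : Subgroup Δ), ¬ p ∣ Nat.card B →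
  ∀ (X : Type) [AddCommGroup X] [DistribMulAction B X] [Finite X], (∀ x : X, p • x = 0) →
    Nat.card (lvH0 (G := GQ) (s56eb_HomB B X (s56eb_T p π χ))) =
        Nat.card (X →+[B] lvH0 (G := GQ) (s56eb_T p π χ)) ∧
    Nat.card (lvH1 (tl_levelsS S) (s56eb_HomB B X (s56eb_T p π χ))) =
        Nat.card (X →+[B] lvH1 (tl_levelsS S) (s56eb_T p π χ)) ∧
    Nat.card (lvH2 (tl_levelsS S) (s56eb_HomB B X (s56eb_T p π χ))) =
        Nat.card (X →+[B] lvH2 (tl_levelsS S) (s56eb_T p π χ))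

end Fermat.Agent.S56
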