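import Fermat.Agent.S56.GW.EC.Base.Main
import Fermat.Agent.S56.GW.EC.Kum.FinTE
import Fermat.Agent.S56.GW.EC.Unit.Seam
import Fermat.Agent.S56.GW.EC.H2Low.Final
import Fermat.Agent.S56.GW.EC.Sh.IdemSeam
import Fermat.Agent.S56.GW.LEC.H2.Closed

/-!
# S56, [GW-EC], cell [EC-BASE]: input (C) closed (prefix `s56eb_`)

`s56eb_C_closed : s56eg_C_stmt`, from `s56eb_main` and the four seams:
(FIN) `s56eck_finTE_main`, (UNIT) `s56ecu_unit_main`, (LOW) `s56e2_low`, (IDEM)
`s56esh_idem_main`; `s56eg_Fin_stmt` from the closed local Euler characteristic.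
-/

set_option autoImplicit false

namespace Fermat.Agent.S56

/-- `s56eg_Fin_stmt`, closed. -/
theorem s56eb_Fin_closed : s56eg_Fin_stmt := s56ega_fin_main s56lh_LEC_closed

/-- The finiteness of `H²(G_S, T_μ)` in the form consumed by [EC-H2LOW]. -/
theorem s56eb_FinMu_closed : s56e2b_FinMu_stmt :=
  fun _ _ hp2 _ hpS _ _ _ _ _ hπ => (s56eb_finMu s56eb_Fin_closed hp2 hpS hπ).2.2

/-- **Input (C) of [GW-EC]**, closed. -/
theorem s56eb_C_closed : s56eg_C_stmt :=
  s56eb_main s56eb_Fin_closed s56eck_finTE_main s56ecu_unit_main (s56e2_low s56eb_FinMu_closed)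
    s56esh_idem_main

end Fermat.Agent.S56
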