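import Fermat.Agent.S56.GW.EC.Base.Tmu
import Fermat.Agent.S56.GW.EC.Base.HomB

/-!
# S56, [GW-EC], cell [EC-BASE]: `coind_B^Δ N ≅ Hom_B(N^*(1), T_μ)` (prefix `s56eb_`)

`B ≤ Δ`, `σ : Representation (ZMod p) B N` finite dimensional, `χ : Δ →* (ZMod p)ˣ`,
`π : G →* Δ`.

* `s56eb_X σ χ` : the `B`-module `N^*(1)`: the dual of `N` with `(b • ν) n = χ b * ν (σ b⁻¹ n)`;
* `s56eb_twist π χ B σ : coindV B.subtype σ ≃+ Hom_B(N^*(1), T_μ)`,
  `ψ ↦ (ν ↦ δ ↦ χ δ * ν (ψ δ⁻¹))`;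
* `s56eb_twist_smul` : it intertwines `coind B.subtype σ (π g)` with the action of `g : G` on
  `Hom_B(N^*(1), T_μ)` through the values.

Mathlib only.
-/

set_option autoImplicit false
set_option linter.unusedSectionVars false

namespace Fermat.Agent.S56

section X

variable {p : ℕ} {B : Type*} [Group B] {N : Type*} [AddCommGroup N] [Module (ZMod p) N]

/-- The `B`-module `N^*(1)`. -/
def s56eb_X (_σ : Representation (ZMod p) B N) (_χ : B →* (ZMod p)ˣ) : Type _ :=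
  Module.Dual (ZMod p) N

namespace s56eb_X

variable {σ : Representation (ZMod p) B N} {χ : B →* (ZMod p)ˣ}

instance : AddCommGroup (s56eb_X σ χ) := inferInstanceAs (AddCommGroup (Module.Dual (ZMod p) N))

instance : Module (ZMod p) (s56eb_X σ χ) := inferInstanceAs (Module (ZMod p) (Module.Dual (ZMod p) N))

/-- The underlying linear form. -/
def toDual : s56eb_X σ χ ≃ₗ[ZMod p] Module.Dual (ZMod p) N := LinearEquiv.refl _ _

/-- Constructor. -/
def ofDual : Module.Dual (ZMod p) N ≃ₗ[ZMod p] s56eb_X σ χ := LinearEquiv.refl _ _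

@[simp] theorem toDual_ofDual (ν : Module.Dual (ZMod p) N) :
    toDual (ofDual ν : s56eb_X σ χ) = ν := rfl

@[simp] theorem ofDual_toDual (ν : s56eb_X σ χ) : ofDual (toDual ν) = ν := rfl

instance instAct : DistribMulAction B (s56eb_X σ χ) where
  smul b ν := ofDual ((χ b : ZMod p) • (toDual ν).comp (σ b⁻¹))
  one_smul ν := by
    show ofDual ((χ 1 : ZMod p) • (toDual ν).comp (σ (1 : B)⁻¹)) = ν
    rw [map_one, inv_one, map_one, Units.val_one, one_smul]
    rfl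
  mul_smul b b' ν := by
    show ofDual ((χ (b * b') : ZMod p) • (toDual ν).comp (σ (b * b')⁻¹)) =
      ofDual ((χ b : ZMod p) • (toDual (ofDual ((χ b' : ZMod p) • (toDual ν).comp (σ b'⁻¹)) :
        s56eb_X σ χ)).comp (σ b⁻¹))
    rw [toDual_ofDual, map_mul, Units.val_mul, mul_inv_rev, map_mul, mul_smul]
    congr 1
  smul_zero b := by
    show ofDual ((χ b : ZMod p) • (toDual (0 : s56eb_X σ χ)).comp (σ b⁻¹)) = 0
    rw [map_zero, LinearMap.zero_comp, smul_zero, map_zero]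
  smul_add b ν ν' := by
    show ofDual ((χ b : ZMod p) • (toDual (ν + ν')).comp (σ b⁻¹)) =
      ofDual ((χ b : ZMod p) • (toDual ν).comp (σ b⁻¹)) +
        ofDual ((χ b : ZMod p) • (toDual ν').comp (σ b⁻¹))
    rw [map_add, LinearMap.add_comp, smul_add, map_add]

theorem toDual_smul (b : B) (ν : s56eb_X σ χ) (n : N) :
    toDual (b • ν) n = (χ b : ZMod p) * toDual ν (σ b⁻¹ n) := rfl

theorem nsmul_eq_zero (ν : s56eb_X σ χ) : p • ν = 0 := by
  rw [← Nat.cast_smul_eq_nsmul (ZMod p), CharP.cast_eq_zero, zero_smul]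

instance [NeZero p] [Module.Finite (ZMod p) N] : Finite (s56eb_X σ χ) :=
  Module.finite_of_finite (ZMod p) (M := Module.Dual (ZMod p) N)

end s56eb_X

end X

section Twist

variable {p : ℕ} [Fact p.Prime] {G : Type*} [Group G] {Δ : Type} [Group Δ] (π : G →* Δ)
  (χ : Δ →* (ZMod p)ˣ) (B : Subgroup Δ) {N : Type} [AddCommGroup N] [Module (ZMod p) N]
  (σ : Representation (ZMod p) B N)

/-- The map `ψ ↦ (ν ↦ δ ↦ χ δ * ν (ψ δ⁻¹))`. -/
def s56eb_twistFun (ψ : Representation.coindV B.subtype σ) :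
    s56eb_HomB B (s56eb_X σ (χ.comp B.subtype)) (s56eb_T p π χ) :=
  s56eb_HomB.mk'
    { toFun := fun ν => s56eb_T.mk fun δ => (χ δ : ZMod p) * s56eb_X.toDual ν (ψ.1 δ⁻¹)
      map_zero' := by
        ext δ
        simp
      map_add' := fun ν ν' => by
        ext δ
        simp [mul_add] }
    (fun b ν => by
      ext δ
      show (χ δ : ZMod p) * s56eb_X.toDual (b • ν) (ψ.1 δ⁻¹) =
        (χ (δ * (b : Δ)) : ZMod p) * s56eb_X.toDual ν (ψ.1 (δ * (b : Δ))⁻¹)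
      rw [s56eb_X.toDual_smul, mul_inv_rev, map_mul, Units.val_mul]
      have h := ψ.2 b⁻¹ δ⁻¹
      have h' : ψ.1 ((b : Δ)⁻¹ * δ⁻¹) = σ b⁻¹ (ψ.1 δ⁻¹) := h
      rw [h']
      show (χ δ : ZMod p) * ((χ (b : Δ) : ZMod p) * _) = _
      ring)

theorem s56eb_twistFun_apply (ψ : Representation.coindV B.subtype σ)
    (ν : s56eb_X σ (χ.comp B.subtype)) (δ : Δ) :
    s56eb_twistFun π χ B σ ψ ν δ = (χ δ : ZMod p) * s56eb_X.toDual ν (ψ.1 δ⁻¹) := rfl

/-- `s56eb_twistFun` as an additive map. -/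
def s56eb_twistHom : Representation.coindV B.subtype σ →+
    s56eb_HomB B (s56eb_X σ (χ.comp B.subtype)) (s56eb_T p π χ) where
  toFun := s56eb_twistFun π χ B σ
  map_zero' := by
    ext ν δ
    rw [s56eb_twistFun_apply]
    simp
  map_add' ψ ψ' := by
    ext ν δ
    rw [s56eb_HomB.add_apply, s56eb_T.add_apply, s56eb_twistFun_apply, s56eb_twistFun_apply,
      s56eb_twistFun_apply]
    show (χ δ : ZMod p) * s56eb_X.toDual ν (ψ.1 δ⁻¹ + ψ'.1 δ⁻¹) = _
    rw [map_add, mul_add]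

theorem s56eb_twistHom_apply (ψ : Representation.coindV B.subtype σ)
    (ν : s56eb_X σ (χ.comp B.subtype)) (δ : Δ) :
    s56eb_twistHom π χ B σ ψ ν δ = (χ δ : ZMod p) * s56eb_X.toDual ν (ψ.1 δ⁻¹) := rfl

theorem s56eb_twistHom_injective : Function.Injective (s56eb_twistHom π χ B σ) := by
  rw [injective_iff_map_eq_zero]
  intro ψ hψ
  apply Subtype.ext
  funext δ
  show ψ.1 δ = 0
  rw [← Module.forall_dual_apply_eq_zero_iff (ZMod p)]
  intro ν
  have h := congrArg (fun Φ : s56eb_HomB B (s56eb_X σ (χ.comp B.subtype)) (s56eb_T p π χ) =>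
    Φ (s56eb_X.ofDual ν) δ⁻¹) hψ
  simp only [s56eb_twistHom_apply, s56eb_X.toDual_ofDual, inv_inv, s56eb_HomB.zero_apply,
    s56eb_T.zero_apply] at h
  rcases mul_eq_zero.1 h with h0 | h0
  · exact absurd h0 (Units.ne_zero _)
  · exact h0

variable [Module.Finite (ZMod p) N]

theorem s56eb_twistHom_surjective : Function.Surjective (s56eb_twistHom π χ B σ) := by
  intro Φ
  -- the linear forms `ν ↦ χ ε * Φ ν ε⁻¹` on the dual
  let ℓ : Δ → Module.Dual (ZMod p) (Module.Dual (ZMod p) N) := fun ε =>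
    AddMonoidHom.toZModLinearMap p
      { toFun := fun ν => (χ ε : ZMod p) * Φ (s56eb_X.ofDual ν) ε⁻¹
        map_zero' := by simp
        map_add' := fun ν ν' => by
          rw [map_add, map_add, s56eb_T.add_apply, mul_add] }
  have hℓ : ∀ ε ν, ℓ ε ν = (χ ε : ZMod p) * Φ (s56eb_X.ofDual ν) ε⁻¹ := fun ε ν => rfl
  let ψ : Δ → N := fun ε => (Module.evalEquiv (ZMod p) N).symm (ℓ ε)
  have hψ : ∀ ε (ν : Module.Dual (ZMod p) N), ν (ψ ε) = ℓ ε ν := by
    intro ε ν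
    have h := Module.apply_evalEquiv_symm_apply (R := ZMod p) (M := N) ν (ℓ ε)
    exact h
  have hmem : ψ ∈ Representation.coindV B.subtype σ := by
    intro b ε
    show ψ ((b : Δ) * ε) = σ b (ψ ε)
    rw [← sub_eq_zero, ← Module.forall_dual_apply_eq_zero_iff (ZMod p)]
    intro ν
    rw [map_sub, sub_eq_zero, hψ, hℓ]
    have h1 : ν (σ b (ψ ε)) = (ν.comp (σ b)) (ψ ε) := rfl
    rw [h1, hψ, hℓ]
    -- `ν ∘ σ b = χ b • (b⁻¹ • ν)`
    have h2 : (s56eb_X.ofDual (ν.comp (σ b)) : s56eb_X σ (χ.comp B.subtype)) =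
        (χ (b : Δ) : ZMod p) • (b⁻¹ • (s56eb_X.ofDual ν : s56eb_X σ (χ.comp B.subtype))) := by
      apply s56eb_X.toDual.injective
      apply LinearMap.ext
      intro n
      rw [s56eb_X.toDual_ofDual, map_smul]
      show ν (σ b n) = (χ (b : Δ) : ZMod p) *
        s56eb_X.toDual (b⁻¹ • (s56eb_X.ofDual ν : s56eb_X σ (χ.comp B.subtype))) n
      rw [s56eb_X.toDual_smul, s56eb_X.toDual_ofDual, inv_inv, ← mul_assoc]
      have h3 : ((χ (b : Δ) : ZMod p)) * ((χ.comp B.subtype) b⁻¹ : (ZMod p)ˣ) = 1 := by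
        show ((χ (b : Δ) : ZMod p)) * ((χ ((b⁻¹ : B) : Δ) : (ZMod p)ˣ) : ZMod p) = 1
        rw [← Units.val_mul, ← map_mul]
        simp
      rw [h3, one_mul]
    rw [h2]
    have h4 : Φ ((χ (b : Δ) : ZMod p) • (b⁻¹ • (s56eb_X.ofDual ν : s56eb_X σ (χ.comp B.subtype)))) =
        (χ (b : Δ) : ZMod p) • Φ (b⁻¹ • (s56eb_X.ofDual ν : s56eb_X σ (χ.comp B.subtype))) := by
      have := (AddMonoidHom.toZModLinearMap p (Φ : s56eb_X σ (χ.comp B.subtype) →+ s56eb_T p π χ)).map_smul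
        (χ (b : Δ) : ZMod p) (b⁻¹ • (s56eb_X.ofDual ν : s56eb_X σ (χ.comp B.subtype)))
      exact this
    rw [h4, s56eb_HomB.map_smul, s56eb_T.smul_apply, s56eb_T.smulB_apply, map_mul, Units.val_mul,
      mul_inv_rev]
    show _ = _ * ((χ (b : Δ) : ZMod p) * Φ (s56eb_X.ofDual ν) (ε⁻¹ * ((b⁻¹ : B) : Δ)))
    rw [Subgroup.coe_inv]
    ring
  refine ⟨⟨ψ, hmem⟩, ?_⟩
  ext ν δ
  rw [s56eb_twistHom_apply]
  show (χ δ : ZMod p) * (s56eb_X.toDual ν) (ψ δ⁻¹) = Φ ν δ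
  rw [hψ, hℓ, inv_inv, s56eb_X.ofDual_toDual, ← mul_assoc, ← Units.val_mul, ← map_mul,
    mul_inv_cancel, map_one, Units.val_one, one_mul]

/-- **The twist isomorphism** `coind_B^Δ N ≃+ Hom_B(N^*(1), T_μ)`. -/
noncomputable def s56eb_twist : Representation.coindV B.subtype σ ≃+
    s56eb_HomB B (s56eb_X σ (χ.comp B.subtype)) (s56eb_T p π χ) :=
  AddEquiv.ofBijective (s56eb_twistHom π χ B σ)
    ⟨s56eb_twistHom_injective π χ B σ, s56eb_twistHom_surjective π χ B σ⟩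

theorem s56eb_twist_apply (ψ : Representation.coindV B.subtype σ)
    (ν : s56eb_X σ (χ.comp B.subtype)) (δ : Δ) :
    s56eb_twist π χ B σ ψ ν δ = (χ δ : ZMod p) * s56eb_X.toDual ν (ψ.1 δ⁻¹) := rfl

/-- The twist isomorphism is `G`-equivariant. -/
theorem s56eb_twist_smul (g : G) (ψ : Representation.coindV B.subtype σ) :
    s56eb_twist π χ B σ (Representation.coind B.subtype σ (π g) ψ) =
      g • s56eb_twist π χ B σ ψ := by
  ext ν δ
  rw [s56eb_twist_apply, s56eb_HomB.smul_apply, s56eb_T.smulG_apply, s56eb_twist_apply]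
  have h1 : (Representation.coind B.subtype σ (π g) ψ).1 δ⁻¹ = ψ.1 (δ⁻¹ * π g) := rfl
  rw [h1, mul_inv_rev, inv_inv, ← mul_assoc, ← Units.val_mul, ← map_mul, mul_inv_cancel_left]

end Twist

end Fermat.Agent.S56
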