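import Fermat.Agent.S56.GW.EC.Base.Seams
import Fermat.Agent.S56.GW.EC.Base.Twist
import Fermat.Agent.S56.GW.EC.GB.Arch

/-!
# S56, [GW-EC], cell [EC-BASE]: the archimedean term (prefix `s56eb_`)

`c̄ = π c ∈ Δ` the image of complex conjugation, `χ c̄ = -1`, `c̄² = 1`.  For `B ≤ Δ`,
`σ : Representation (ZMod p) B N` finite dimensional and `X = N^*(1)`:

`#Hom_B(X, F_p[Δ ⧸ ⟨c̄⟩]) · p ^ dim (coind_B^Δ N)^{c̄} = p ^ dim coind_B^Δ N`  (`s56eb_arch`).

Route: `F_p[Δ ⧸ ⟨c̄⟩] ≅ T_μ^{c = -1}` as `B`-modules, `Hom_B(X, T_μ)^{c = -1} ≅ (coind N)^{c̄ = -1}`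
by the twist isomorphism, and `V = V⁺ ⊕ V⁻` for an involution in odd characteristic.
-/

set_option autoImplicit false
set_option linter.unusedSectionVars false

open ExtCitation Module

namespace Fermat.Agent.S56

local notation "GQ" => (AlgebraicClosure ℚ ≃ₐ[ℚ] AlgebraicClosure ℚ)

section Involution

variable {k : Type*} [Field k] {V : Type*} [AddCommGroup V] [Module k V]

/-- `V = V⁺ ⊕ V⁻` for an involution, in dimension form. -/
theorem s56eb_involution_finrank [FiniteDimensional k V] (h2 : (2 : k) ≠ 0) (C : V →ₗ[k] V)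
    (hC : ∀ v, C (C v) = v) :
    finrank k (LinearMap.ker (C - LinearMap.id)) + finrank k (LinearMap.ker (C + LinearMap.id)) =
      finrank k V := by
  have hinf : LinearMap.ker (C - LinearMap.id) ⊓ LinearMap.ker (C + LinearMap.id) = ⊥ := by
    rw [eq_bot_iff]
    intro v hv
    obtain ⟨h1, h3⟩ := Submodule.mem_inf.1 hv
    rw [LinearMap.mem_ker, LinearMap.sub_apply, LinearMap.id_apply, sub_eq_zero] at h1
    rw [LinearMap.mem_ker, LinearMap.add_apply, LinearMap.id_apply, h1] at h3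
    rw [Submodule.mem_bot]
    have h4 : (2 : k) • v = 0 := by rw [two_smul]; exact h3
    rcases smul_eq_zero.1 h4 with h | h
    · exact absurd h h2
    · exact h
  have hsup : LinearMap.ker (C - LinearMap.id) ⊔ LinearMap.ker (C + LinearMap.id) = ⊤ := by
    rw [eq_top_iff]
    intro v _
    have e : v = (2 : k)⁻¹ • (v + C v) + (2 : k)⁻¹ • (v - C v) := by
      rw [← smul_add, add_add_sub_cancel, ← two_smul k v, smul_smul, inv_mul_cancel₀ h2, one_smul]
    rw [e]
    refine Submodule.add_mem_sup ?_ ?_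
    · rw [LinearMap.mem_ker, LinearMap.sub_apply, LinearMap.id_apply, map_smul, map_add, hC,
        ← smul_sub, add_comm, sub_self, smul_zero]
    · rw [LinearMap.mem_ker, LinearMap.add_apply, LinearMap.id_apply, map_smul, map_sub, hC,
        ← smul_add]
      have : C v - v + (v - C v) = 0 := by abel
      rw [this, smul_zero]
  have h := Submodule.finrank_sup_add_finrank_inf_eq (LinearMap.ker (C - LinearMap.id))
    (LinearMap.ker (C + LinearMap.id))
  rw [hinf, hsup, finrank_bot, add_zero, finrank_top] at h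
  exact h.symm

end Involution

section Arch

variable {p : ℕ} [Fact p.Prime] {Δ : Type} [Group Δ] (π : GQ →* Δ) (χ : Δ →* (ZMod p)ˣ)
  (hχ : ∀ g, χ (π g) = cycloChar p g)

theorem s56eb_cbar_mul_self : π complexConjugation * π complexConjugation = 1 := by
  rw [← map_mul, complexConjugation_mul_self, map_one]

theorem s56eb_cbar_inv : (π complexConjugation)⁻¹ = π complexConjugation :=
  inv_eq_of_mul_eq_one_right (s56eb_cbar_mul_self π)

include hχ in
theorem s56eb_chi_cbar : ((χ (π complexConjugation) : (ZMod p)ˣ) : ZMod p) = -1 := by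
  rw [hχ]
  exact s56egb_cycloChar_conj

theorem s56eb_mem_zpowers_cbar {z : Δ} (hz : z ∈ Subgroup.zpowers (π complexConjugation)) :
    z = 1 ∨ z = π complexConjugation := by
  obtain ⟨n, rfl⟩ := Subgroup.mem_zpowers_iff.1 hz
  have hsq : (π complexConjugation) ^ (2 : ℤ) = 1 := by
    rw [zpow_ofNat, sq]
    exact s56eb_cbar_mul_self π
  rcases Int.even_or_odd' n with ⟨m, rfl | rfl⟩
  · left
    rw [zpow_mul, hsq, one_zpow]
  · right
    rw [zpow_add, zpow_mul, hsq, one_zpow, one_mul, zpow_one]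

variable (B : Subgroup Δ) {N : Type} [AddCommGroup N] [Module (ZMod p) N]
  (σ : Representation (ZMod p) B N)

/-- The `(-1)`-eigenspace of `c` on `Hom_B(X, T_μ)`. -/
def s56eb_Hm : AddSubgroup (s56eb_HomB B (s56eb_X σ (χ.comp B.subtype)) (s56eb_T p π χ)) where
  carrier := {Φ | ∀ x δ, Φ x (π complexConjugation * δ) = Φ x δ}
  zero_mem' := fun _ _ => rfl
  add_mem' := by
    intro Φ Ψ hΦ hΨ x δ
    rw [s56eb_HomB.add_apply, s56eb_T.add_apply, s56eb_T.add_apply, hΦ, hΨ]
  neg_mem' := by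
    intro Φ hΦ x δ
    rw [s56eb_HomB.neg_apply, s56eb_T.neg_apply, s56eb_T.neg_apply, hΦ]

include hχ in
theorem s56eb_mem_Hm_iff (Φ : s56eb_HomB B (s56eb_X σ (χ.comp B.subtype)) (s56eb_T p π χ)) :
    Φ ∈ s56eb_Hm π χ B σ ↔ (complexConjugation : GQ) • Φ = -Φ := by
  constructor
  · intro h
    ext x δ
    rw [s56eb_HomB.smul_apply, s56eb_T.smulG_apply, s56eb_chi_cbar π χ hχ, s56eb_cbar_inv,
      h x δ, s56eb_HomB.neg_apply, s56eb_T.neg_apply, neg_one_mul]
  · intro h x δ
    have h1 := congrArg (fun Ψ : s56eb_HomB B (s56eb_X σ (χ.comp B.subtype)) (s56eb_T p π χ) =>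
      Ψ x δ) h
    simp only [s56eb_HomB.smul_apply, s56eb_T.smulG_apply, s56eb_HomB.neg_apply,
      s56eb_T.neg_apply] at h1
    rw [s56eb_chi_cbar π χ hχ, s56eb_cbar_inv, neg_one_mul, neg_inj] at h1
    exact h1

/-- Evaluation of an element of `F_p[Y]`. -/
def s56eb_Fp.ev {p : ℕ} {Y : Type*} (a : s56eb_Fp p Y) (y : Y) : ZMod p := a y

theorem s56eb_Fp.ev_smul {p : ℕ} {Y : Type*} {B : Type*} [Group B] [MulAction B Y] (b : B)
    (a : s56eb_Fp p Y) (y : Y) : (b • a).ev y = a.ev (b⁻¹ • y) := rfl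

theorem s56eb_Fp.ev_add {p : ℕ} {Y : Type*} (a a' : s56eb_Fp p Y) (y : Y) :
    (a + a').ev y = a.ev y + a'.ev y := rfl

theorem s56eb_Fp.ev_zero {p : ℕ} {Y : Type*} (y : Y) : (0 : s56eb_Fp p Y).ev y = 0 := rfl

theorem s56eb_Fp.ext_ev {p : ℕ} {Y : Type*} {a a' : s56eb_Fp p Y} (h : ∀ y, a.ev y = a'.ev y) :
    a = a' := funext h

/-- The forward map of `s56eb_archEquiv`. -/
noncomputable def s56eb_archFun (Φ' : s56eb_X σ (χ.comp B.subtype) →+[B] s56eb_Fp p (s56eb_YI π)) :
    s56eb_HomB B (s56eb_X σ (χ.comp B.subtype)) (s56eb_T p π χ) :=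
  s56eb_HomB.mk'
    { toFun := fun x => s56eb_T.mk fun δ => (Φ' x).ev (QuotientGroup.mk δ⁻¹)
      map_zero' := by
        ext δ
        show (Φ' 0).ev (QuotientGroup.mk δ⁻¹) = 0
        rw [map_zero, s56eb_Fp.ev_zero]
      map_add' := fun x y => by
        ext δ
        show (Φ' (x + y)).ev (QuotientGroup.mk δ⁻¹) =
          (Φ' x).ev (QuotientGroup.mk δ⁻¹) + (Φ' y).ev (QuotientGroup.mk δ⁻¹)
        rw [map_add, s56eb_Fp.ev_add] }
    (fun b x => by
      ext δ
      show (Φ' (b • x)).ev (QuotientGroup.mk δ⁻¹) = (Φ' x).ev (QuotientGroup.mk (δ * (b : Δ))⁻¹)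
      rw [map_smul]
      show (Φ' x).ev ((b⁻¹ : B) • (QuotientGroup.mk δ⁻¹ : s56eb_YI π)) = _
      rw [mul_inv_rev]
      rfl)

theorem s56eb_archFun_apply (Φ' : s56eb_X σ (χ.comp B.subtype) →+[B] s56eb_Fp p (s56eb_YI π))
    (x : s56eb_X σ (χ.comp B.subtype)) (δ : Δ) :
    s56eb_archFun π χ B σ Φ' x δ = (Φ' x).ev (QuotientGroup.mk δ⁻¹) := rfl

theorem s56eb_archFun_mem (Φ' : s56eb_X σ (χ.comp B.subtype) →+[B] s56eb_Fp p (s56eb_YI π)) :
    s56eb_archFun π χ B σ Φ' ∈ s56eb_Hm π χ B σ := by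
  intro x δ
  rw [s56eb_archFun_apply, s56eb_archFun_apply]
  congr 1
  rw [QuotientGroup.eq]
  have h1 : ((π complexConjugation * δ)⁻¹)⁻¹ * δ⁻¹ = π complexConjugation := by group
  rw [h1]
  exact Subgroup.mem_zpowers _

/-- The values of the backward map of `s56eb_archEquiv`. -/
noncomputable def s56eb_archInvFun (Φ : ↥(s56eb_Hm π χ B σ)) (x : s56eb_X σ (χ.comp B.subtype)) :
    s56eb_Fp p (s56eb_YI π) :=
  s56eb_Fp.mk (Quotient.lift (fun ε : Δ => Φ.1 x ε⁻¹)
    (by
      intro ε ε' h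
      have h1 : ε⁻¹ * ε' ∈ Subgroup.zpowers (π complexConjugation) :=
        QuotientGroup.leftRel_apply.mp h
      show Φ.1 x ε⁻¹ = Φ.1 x ε'⁻¹
      rcases s56eb_mem_zpowers_cbar π h1 with h2 | h2
      · have : ε' = ε := by
          have := congrArg (fun t => ε * t) h2
          simpa using this
        rw [this]
      · have h3 : ε⁻¹ = π complexConjugation * ε'⁻¹ := by
          rw [← h2]
          group
        rw [h3, Φ.2 x ε'⁻¹]))

theorem s56eb_archInvFun_ev (Φ : ↥(s56eb_Hm π χ B σ)) (x : s56eb_X σ (χ.comp B.subtype))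
    (ε : Δ) : (s56eb_archInvFun π χ B σ Φ x).ev (QuotientGroup.mk ε) = Φ.1 x ε⁻¹ := rfl

/-- `Hom_B(X, F_p[Δ ⧸ ⟨c̄⟩]) ≃ Hom_B(X, T_μ)^{c = -1}`. -/
noncomputable def s56eb_archEquiv :
    (s56eb_X σ (χ.comp B.subtype) →+[B] s56eb_Fp p (s56eb_YI π)) ≃ ↥(s56eb_Hm π χ B σ) where
  toFun Φ' := ⟨s56eb_archFun π χ B σ Φ', s56eb_archFun_mem π χ B σ Φ'⟩
  invFun Φ :=
    { toFun := s56eb_archInvFun π χ B σ Φ
      map_smul' := fun b x => by
        apply s56eb_Fp.ext_ev
        intro y
        induction y using QuotientGroup.induction_on with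
        | H ε =>
          show (s56eb_archInvFun π χ B σ Φ (b • x)).ev (QuotientGroup.mk ε) =
            (s56eb_archInvFun π χ B σ Φ x).ev (QuotientGroup.mk (((b⁻¹ : B) : Δ) * ε))
          rw [s56eb_archInvFun_ev, s56eb_archInvFun_ev, s56eb_HomB.map_smul,
            s56eb_T.smulB_apply, mul_inv_rev, Subgroup.coe_inv, inv_inv]
      map_zero' := by
        apply s56eb_Fp.ext_ev
        intro y
        induction y using QuotientGroup.induction_on with
        | H ε =>
          rw [s56eb_archInvFun_ev, map_zero, s56eb_Fp.ev_zero]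
          rfl
      map_add' := fun x x' => by
        apply s56eb_Fp.ext_ev
        intro y
        induction y using QuotientGroup.induction_on with
        | H ε =>
          rw [s56eb_Fp.ev_add, s56eb_archInvFun_ev, s56eb_archInvFun_ev, s56eb_archInvFun_ev,
            map_add]
          rfl }
  left_inv Φ' := by
    ext x y
    induction y using QuotientGroup.induction_on with
    | H ε =>
      show (s56eb_archInvFun π χ B σ ⟨s56eb_archFun π χ B σ Φ', _⟩ x).ev (QuotientGroup.mk ε) =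
        (Φ' x).ev (QuotientGroup.mk ε)
      rw [s56eb_archInvFun_ev]
      show s56eb_archFun π χ B σ Φ' x ε⁻¹ = _
      rw [s56eb_archFun_apply, inv_inv]
  right_inv Φ := by
    apply Subtype.ext
    ext x δ
    show s56eb_archFun π χ B σ _ x δ = Φ.1 x δ
    rw [s56eb_archFun_apply]
    show (s56eb_archInvFun π χ B σ Φ x).ev (QuotientGroup.mk δ⁻¹) = Φ.1 x δ
    rw [s56eb_archInvFun_ev, inv_inv]

variable [Module.Finite (ZMod p) N]

/-- The `(-1)`-eigenspace of `c̄` on the coinduced module. -/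
noncomputable def s56eb_Vm : Submodule (ZMod p) (Representation.coindV B.subtype σ) :=
  LinearMap.ker (Representation.coind B.subtype σ (π complexConjugation) + LinearMap.id)

/-- The `(+1)`-eigenspace of `c̄` on the coinduced module. -/
noncomputable def s56eb_Vp : Submodule (ZMod p) (Representation.coindV B.subtype σ) :=
  LinearMap.ker (Representation.coind B.subtype σ (π complexConjugation) - LinearMap.id)

theorem s56eb_mem_Vm (ψ : Representation.coindV B.subtype σ) :
    ψ ∈ s56eb_Vm π B σ ↔ Representation.coind B.subtype σ (π complexConjugation) ψ = -ψ := by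
  rw [s56eb_Vm, LinearMap.mem_ker, LinearMap.add_apply, LinearMap.id_apply, add_eq_zero_iff_eq_neg]

theorem s56eb_mem_Vp (ψ : Representation.coindV B.subtype σ) :
    ψ ∈ s56eb_Vp π B σ ↔ Representation.coind B.subtype σ (π complexConjugation) ψ = ψ := by
  rw [s56eb_Vp, LinearMap.mem_ker, LinearMap.sub_apply, LinearMap.id_apply, sub_eq_zero]

include hχ in
/-- The twist isomorphism identifies the two `(-1)`-eigenspaces. -/
noncomputable def s56eb_VmEquiv : ↥(s56eb_Vm π B σ) ≃ ↥(s56eb_Hm π χ B σ) where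
  toFun ψ := ⟨s56eb_twist π χ B σ ψ.1, by
    rw [s56eb_mem_Hm_iff π χ hχ, ← s56eb_twist_smul, (s56eb_mem_Vm π B σ ψ.1).1 ψ.2, map_neg]⟩
  invFun Φ := ⟨(s56eb_twist π χ B σ).symm Φ.1, by
    rw [s56eb_mem_Vm]
    apply (s56eb_twist π χ B σ).injective
    rw [s56eb_twist_smul, map_neg, AddEquiv.apply_symm_apply]
    exact (s56eb_mem_Hm_iff π χ hχ B σ Φ.1).1 Φ.2⟩
  left_inv ψ := Subtype.ext ((s56eb_twist π χ B σ).symm_apply_apply _)
  right_inv Φ := Subtype.ext ((s56eb_twist π χ B σ).apply_symm_apply _)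

include hχ in
/-- **The archimedean count.** -/
theorem s56eb_arch [Finite Δ] (hp2 : p ≠ 2) :
    Nat.card (s56eb_X σ (χ.comp B.subtype) →+[B] s56eb_Fp p (s56eb_YI π)) *
        p ^ finrank (ZMod p) (s56eb_Vp π B σ) =
      p ^ finrank (ZMod p) (Representation.coindV B.subtype σ) := by
  have hp : p.Prime := Fact.out
  have h2 : (2 : ZMod p) ≠ 0 := by
    intro h
    have h3 : ((2 : ℕ) : ZMod p) = 0 := by exact_mod_cast h
    rw [ZMod.natCast_eq_zero_iff] at h3
    exact hp2 ((Nat.prime_dvd_prime_iff_eq hp Nat.prime_two).1 h3)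
  have : Module.Finite (ZMod p) (Representation.coindV B.subtype σ) := by
    have : Module.Finite (ZMod p) (Δ → N) := Module.Finite.pi
    infer_instance
  have hC : ∀ ψ : Representation.coindV B.subtype σ,
      Representation.coind B.subtype σ (π complexConjugation)
        (Representation.coind B.subtype σ (π complexConjugation) ψ) = ψ := by
    intro ψ
    have : (Representation.coind B.subtype σ (π complexConjugation) *
        Representation.coind B.subtype σ (π complexConjugation)) ψ = ψ := by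
      rw [← map_mul, s56eb_cbar_mul_self, map_one]
      rfl
    exact this
  have hdim := s56eb_involution_finrank h2
    (Representation.coind B.subtype σ (π complexConjugation)) hC
  have hcard : Nat.card (s56eb_X σ (χ.comp B.subtype) →+[B] s56eb_Fp p (s56eb_YI π)) =
      p ^ finrank (ZMod p) (s56eb_Vm π B σ) := by
    rw [Nat.card_congr (s56eb_archEquiv π χ B σ),
      ← Nat.card_congr (s56eb_VmEquiv π χ hχ B σ),
      Module.natCard_eq_pow_finrank (K := ZMod p), Nat.card_zmod]
  rw [hcard, ← pow_add, ← hdim, add_comm]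
  rfl

end Arch

end Fermat.Agent.S56
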