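import Fermat.Agent.S56.GW.EC.Base.Seams
import Fermat.Agent.S56.GW.EC.Base.TF
import Fermat.Agent.S56.GW.EC.GA.Main
import Fermat.Agent.S56.GW.EC.Unit.LevField

/-!
# S56, [GW-EC], cell [EC-BASE]: finiteness of `Hⁱ(G_S, T_μ)` (prefix `s56eb_`)

`T_μ = s56eb_T p π χ` is the `G_ℚ`-module underlying the inflation of the `Δ`-representation
`s56eb_Rmu χ` on `Δ → ZMod p`, `(R δ₀ φ) δ = χ δ₀ * φ (δ₀⁻¹ * δ)`; hence `s56eg_Fin_stmt`
gives the finiteness of `lvHⁱ (tl_levelsS S) T_μ`.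

* `s56eb_isLev_level` : a level `s56eg_IsLev p S π χ` contains a level of `tl_levelsS S`
  in its kernel;
* `s56eb_card_infl` : the dictionary `Nat.card (lvHⁱ (tl_Act (infl ρ))) = p ^ hⁱ` under
  `s56eg_Fin_stmt`;
* `s56eb_finMu` : `lvH0`, `lvH1`, `lvH2` of `T_μ` are finite.
-/

set_option autoImplicit false
set_option linter.unusedSectionVars false

open CategoryTheory Module groupCohomology ExtCitation

namespace Fermat.Agent.S56

open Fermat.Agent.S55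

local notation "GQ" => (AlgebraicClosure ℚ ≃ₐ[ℚ] AlgebraicClosure ℚ)

section

variable {p : ℕ} [Fact p.Prime] {Δ : Type} [Group Δ]

/-- A level in the sense of `s56eg_IsLev` has a level of `tl_levelsS S` in its kernel. -/
theorem s56eb_isLev_level {S : Finset Nat.Primes} {π : GQ →* Δ} {χ : Δ →* (ZMod p)ˣ}
    (hπ : s56eg_IsLev p S π χ) : ∃ U ∈ (tl_levelsS S).levels, U ≤ π.ker :=
  ⟨(s56ecu_levK π).fixingSubgroup,
    ⟨s56ecu_levK π, s56ecu_levK_unr π hπ.smooth S hπ.unr, rfl⟩,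
    (s56ecu_levK_fixingSubgroup π hπ.smooth).le⟩

/-- The `Δ`-representation underlying `T_μ`. -/
noncomputable def s56eb_Rmu (χ : Δ →* (ZMod p)ˣ) : Representation (ZMod p) Δ (Δ → ZMod p) where
  toFun δ₀ :=
    { toFun := fun φ δ => (χ δ₀ : ZMod p) * φ (δ₀⁻¹ * δ)
      map_add' := fun φ ψ => by
        funext δ
        show (χ δ₀ : ZMod p) * (φ (δ₀⁻¹ * δ) + ψ (δ₀⁻¹ * δ)) = _
        rw [mul_add]
        rfl
      map_smul' := fun c φ => by
        funext δ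
        show (χ δ₀ : ZMod p) * (c * φ (δ₀⁻¹ * δ)) = c * ((χ δ₀ : ZMod p) * φ (δ₀⁻¹ * δ))
        ring }
  map_one' := by
    apply LinearMap.ext
    intro φ
    funext δ
    show (χ 1 : ZMod p) * φ (1⁻¹ * δ) = φ δ
    rw [map_one, inv_one, one_mul, Units.val_one, one_mul]
  map_mul' a b := by
    apply LinearMap.ext
    intro φ
    funext δ
    show (χ (a * b) : ZMod p) * φ ((a * b)⁻¹ * δ) =
      (χ a : ZMod p) * ((χ b : ZMod p) * φ (b⁻¹ * (a⁻¹ * δ)))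
    rw [map_mul, Units.val_mul, mul_inv_rev, mul_assoc, mul_assoc]

theorem s56eb_Rmu_apply (χ : Δ →* (ZMod p)ˣ) (δ₀ : Δ) (φ : Δ → ZMod p) (δ : Δ) :
    s56eb_Rmu χ δ₀ φ δ = (χ δ₀ : ZMod p) * φ (δ₀⁻¹ * δ) := rfl

/-- `T_μ` is the inflation of `s56eb_Rmu χ`. -/
noncomputable def s56eb_muEquiv (π : GQ →* Δ) (χ : Δ →* (ZMod p)ˣ) :
    tl_Act (s56eg_infl π (s56eb_Rmu χ)) ≃+ s56eb_T p π χ where
  toFun φ := s56eb_T.mk fun δ => (show Δ → ZMod p from φ) δ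
  invFun φ := (show Δ → ZMod p from fun δ => φ δ)
  left_inv _ := rfl
  right_inv _ := rfl
  map_add' _ _ := rfl

theorem s56eb_muEquiv_smul (π : GQ →* Δ) (χ : Δ →* (ZMod p)ˣ) (g : GQ)
    (φ : tl_Act (s56eg_infl π (s56eb_Rmu χ))) :
    s56eb_muEquiv π χ (g • φ) = g • s56eb_muEquiv π χ φ := rfl

end

section Dict

variable {p : ℕ} [Fact p.Prime] {Δ : Type} [Group Δ]

/-- The dictionary under `s56eg_Fin_stmt`: the level cohomology of an inflated finite module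
has cardinality `p ^ hⁱ`. -/
theorem s56eb_card_infl (hFin : s56eg_Fin_stmt) (hp2 : p ≠ 2) {S : Finset Nat.Primes}
    (hpS : pPrime p ∈ S) {π : GQ →* Δ} {χ : Δ →* (ZMod p)ˣ} (hπ : s56eg_IsLev p S π χ)
    {M : Type} [AddCommGroup M] [Module (ZMod p) M] [Module.Finite (ZMod p) M]
    (ρ : Representation (ZMod p) Δ M) :
    Nat.card (lvH0 (G := GQ) (tl_Act (s56eg_infl π ρ))) =
        p ^ finrank (ZMod p) ↥(s56eg_infl π ρ).ρ.invariants ∧
    Nat.card (lvH1 (tl_levelsS S) (tl_Act (s56eg_infl π ρ))) =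
        p ^ finrank (ZMod p) ↥(continuousH1S S (s56eg_infl π ρ)) ∧
    Nat.card (lvH2 (tl_levelsS S) (tl_Act (s56eg_infl π ρ))) =
        p ^ finrank (ZMod p) (continuousH2S S (s56eg_infl π ρ)) := by
  have hfd : FiniteDimensional (ZMod p) (s56eg_infl π ρ) :=
    inferInstanceAs (Module.Finite (ZMod p) M)
  obtain ⟨h1, h2⟩ := hFin p hp2 S hpS (s56eg_infl π ρ) (s56ega_isLev_smooth hπ ρ)
    (s56ega_isLev_unrOut hπ ρ)
  exact ⟨s56ega_card_H0 _, s56ega_card_H1 S _, s56ega_card_H2 S _⟩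

/-- **Finiteness of `Hⁱ(G_S, T_μ)`.** -/
theorem s56eb_finMu (hFin : s56eg_Fin_stmt) (hp2 : p ≠ 2) {S : Finset Nat.Primes}
    (hpS : pPrime p ∈ S) [Finite Δ] {π : GQ →* Δ} {χ : Δ →* (ZMod p)ˣ}
    (hπ : s56eg_IsLev p S π χ) :
    Finite (lvH0 (G := GQ) (s56eb_T p π χ)) ∧ Finite (lvH1 (tl_levelsS S) (s56eb_T p π χ)) ∧
      Finite (lvH2 (tl_levelsS S) (s56eb_T p π χ)) := by
  have hp : p.Prime := Fact.out
  have : Module.Finite (ZMod p) (Δ → ZMod p) := Module.Finite.pi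
  obtain ⟨c0, c1, c2⟩ := s56eb_card_infl hFin hp2 hpS hπ (s56eb_Rmu χ)
  have f0 : Finite (lvH0 (G := GQ) (tl_Act (s56eg_infl π (s56eb_Rmu χ)))) :=
    Nat.finite_of_card_ne_zero (by rw [c0]; exact pow_ne_zero _ hp.ne_zero)
  have f1 : Finite (lvH1 (tl_levelsS S) (tl_Act (s56eg_infl π (s56eb_Rmu χ)))) :=
    Nat.finite_of_card_ne_zero (by rw [c1]; exact pow_ne_zero _ hp.ne_zero)
  have f2 : Finite (lvH2 (tl_levelsS S) (tl_Act (s56eg_infl π (s56eb_Rmu χ)))) :=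
    Nat.finite_of_card_ne_zero (by rw [c2]; exact pow_ne_zero _ hp.ne_zero)
  exact ⟨Finite.of_equiv _
      (s56eb_lvH0_congr (tl_levelsS S) (s56eb_muEquiv π χ) (s56eb_muEquiv_smul π χ)).toEquiv,
    Finite.of_equiv _
      (s56eb_lvH1_congr (tl_levelsS S) (s56eb_muEquiv π χ) (s56eb_muEquiv_smul π χ)).toEquiv,
    Finite.of_equiv _
      (s56eb_lvH2_congr (tl_levelsS S) (s56eb_muEquiv π χ) (s56eb_muEquiv_smul π χ)).toEquiv⟩

end Dict

end Fermat.Agent.S56
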