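import Fermat.Agent.S56.GW.EC.GDef

/-!
# S56, [GW-EC], cell [EC-BASE]: the archimedean invariants of an inflated module (`s56eba_`)

For `π : G_ℚ →* Δ` and a representation `R` of `Δ` on `V`, the invariants of the archimedean
decomposition group `⟨c⟩` (`c` = complex conjugation) on the inflation of `R` are the fixed points
of `R (π c)`:

* `s56eba_mem_resInf_invariants` : `v ∈ (s56gw_resInf (s56eg_infl π R)).ρ.invariants ↔
  R (π c) v = v`;
* `s56eba_resInf` : `finrank (s56gw_resInf (s56eg_infl π R)).ρ.invariants =
  finrank (ker (R (π c) - id))`;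
* `s56eba_resInf_card` : the same with `Nat.card` of the fixed-point subtype.
-/

set_option autoImplicit false
set_option linter.unusedSectionVars false

open CategoryTheory Module groupCohomology ExtCitation

namespace Fermat.Agent.S56

local notation "GQ" => (AlgebraicClosure ℚ ≃ₐ[ℚ] AlgebraicClosure ℚ)

variable {p : ℕ} [Fact p.Prime] {Δ : Type} [Group Δ] (π : GQ →* Δ) {V : Type} [AddCommGroup V]
  [Module (ZMod p) V] (R : Representation (ZMod p) Δ V)

/-- The invariants of `⟨c⟩` on the inflation of `R` are the fixed points of `R (π c)`. -/
theorem s56eba_mem_resInf_invariants (v : V) :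
    v ∈ (s56gw_resInf (s56eg_infl π R)).ρ.invariants ↔ R (π complexConjugation) v = v := by
  constructor
  · intro h
    exact h archimedeanGen
  · intro h g
    obtain ⟨g, hg⟩ := g
    obtain ⟨n, rfl⟩ := Subgroup.mem_zpowers_iff.1 hg
    show R (π (complexConjugation ^ n)) v = v
    have hfix : ∀ m : ℕ, R (π (complexConjugation ^ m)) v = v := by
      intro m
      induction m with
      | zero => rw [pow_zero, map_one, map_one]; rfl
      | succ m ih =>
        rw [pow_succ, map_mul, map_mul]
        show R (π (complexConjugation ^ m)) (R (π complexConjugation) v) = v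
        rw [h, ih]
    rcases Int.eq_nat_or_neg n with ⟨m, rfl | rfl⟩
    · rw [zpow_natCast]
      exact hfix m
    · rw [zpow_neg, zpow_natCast, map_inv]
      have h4 := hfix m
      have h5 : R (π (complexConjugation ^ m))⁻¹ (R (π (complexConjugation ^ m)) v) = v := by
        have : (R (π (complexConjugation ^ m))⁻¹ * R (π (complexConjugation ^ m))) v = v := by
          rw [← map_mul, inv_mul_cancel, map_one]
          rfl
        exact this
      rw [h4] at h5
      exact h5

/-- The linear equivalence between the archimedean invariants and the fixed points of `R (π c)`. -/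
noncomputable def s56eba_resInfEquiv :
    ↥(s56gw_resInf (s56eg_infl π R)).ρ.invariants ≃ₗ[ZMod p]
      ↥(LinearMap.ker (R (π complexConjugation) - LinearMap.id)) where
  toFun v := ⟨(v : V), by
    rw [LinearMap.mem_ker, LinearMap.sub_apply, LinearMap.id_apply, sub_eq_zero]
    exact (s56eba_mem_resInf_invariants π R (v : V)).1 v.2⟩
  map_add' _ _ := rfl
  map_smul' _ _ := rfl
  invFun v := ⟨(v : V), (s56eba_mem_resInf_invariants π R (v : V)).2 (by
    have h := v.2
    rw [LinearMap.mem_ker, LinearMap.sub_apply, LinearMap.id_apply, sub_eq_zero] at h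
    exact h)⟩
  left_inv _ := rfl
  right_inv _ := rfl

/-- **The archimedean term of `s56eg_f`** is the dimension of the fixed points of `R (π c)`. -/
theorem s56eba_resInf :
    Module.finrank (ZMod p) ↥(s56gw_resInf (s56eg_infl π R)).ρ.invariants =
      Module.finrank (ZMod p) ↥(LinearMap.ker (R (π complexConjugation) - LinearMap.id)) :=
  (s56eba_resInfEquiv π R).finrank_eq

/-- Cardinal form, with the fixed points as a subtype. -/
theorem s56eba_resInf_card :
    Nat.card ↥(s56gw_resInf (s56eg_infl π R)).ρ.invariants =
      Nat.card {v : V // R (π complexConjugation) v = v} :=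
  Nat.card_congr
    { toFun := fun v => ⟨(v : V), (s56eba_mem_resInf_invariants π R (v : V)).1 v.2⟩
      invFun := fun v => ⟨(v : V), (s56eba_mem_resInf_invariants π R (v : V)).2 v.2⟩
      left_inv := fun _ => rfl
      right_inv := fun _ => rfl }

end Fermat.Agent.S56
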