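import Fermat.Agent.S56.GW.EC.Base.Seams
import Fermat.Agent.S56.GW.EC.Base.Twist
import Fermat.Agent.S56.GW.EC.Base.TF
import Fermat.Agent.S56.GW.EC.Base.Les
import Fermat.Agent.S56.GW.EC.Base.Arch
import Fermat.Agent.S56.GW.EC.Base.FinMu
import Fermat.Agent.S56.GW.EC.Base.ResInf
import Fermat.Agent.S56.GW.EC.Mult.Hx2

/-!
# S56, [GW-EC], cell [EC-BASE]: the base case `f ≤ 0` (prefix `s56eb_`)

`s56eb_main : s56eg_Fin_stmt → s56eb_Fin_stmt → s56eb_Unit_stmt → s56eb_Low_stmt →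
  s56eb_Idem_stmt → s56eg_C_stmt`.

For `R = coind_B^Δ σ` (`p ∤ #B`), `X = σ^*(1)`, `h(A) = #Hom_B(X, A)`:
`p^{hⁱ(R)} = #Hⁱ(G_S, Hom_B(X, T_μ)) = h(Hⁱ(G_S, T_μ))` (twist + (IDEM)), and along the Kummer
sequence `0 → T_μ → T_E → T_E → 0`:
`h(H⁰ T_μ) = h(E₀)`, `h(H¹ T_μ) = h(E₀/p) h(H¹ T_E)`, `h(H² T_μ) = h(H¹ T_E / p) h(Br)`,
`h(H¹ T_E / p) = h(H¹ T_E)` (Herbrand, (FIN)), `h(E₀/p) h(F_p) = h(E₀) h(F_p[S_f]) h(F_p[S_∞])`
((UNIT)), `h(F_p[S_f]) ≤ h(Br) h(F_p)` ((LOW)), `h(F_p[S_∞]) p^{h⁰_∞(R)} = p^{dim R}` (Arch).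
-/

set_option autoImplicit false
set_option linter.unusedSectionVars false

open CategoryTheory Module groupCohomology ExtCitation

namespace Fermat.Agent.S56

open Fermat.Agent.S55

local notation "GQ" => (AlgebraicClosure ℚ ≃ₐ[ℚ] AlgebraicClosure ℚ)
local notation "Qbar" => AlgebraicClosure ℚ

section ModP

variable (p : ℕ) {B : Type*} [Monoid B] (M : Type*) [AddCommGroup M] [DistribMulAction B M]

/-- The subgroup `p M`. -/
def s56eb_pM : AddSubgroup M := (nsmulAddMonoidHom (α := M) p).range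

theorem s56eb_mem_pM {m : M} : m ∈ s56eb_pM p M ↔ ∃ m', m = p • m' := by
  constructor
  · rintro ⟨m', rfl⟩
    exact ⟨m', rfl⟩
  · rintro ⟨m', rfl⟩
    exact ⟨m', rfl⟩

/-- The quotient `M / p M`. -/
def s56eb_modp : Type _ := M ⧸ s56eb_pM p M

instance s56eb_modp.instAddCommGroup : AddCommGroup (s56eb_modp p M) :=
  inferInstanceAs (AddCommGroup (M ⧸ s56eb_pM p M))

theorem s56eb_pM_le_comap (b : B) :
    s56eb_pM p M ≤ (s56eb_pM p M).comap (DistribSMul.toAddMonoidHom M b) := by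
  rintro _ ⟨m', rfl⟩
  exact ⟨b • m', (s56eb_smul_nsmul M b p m').symm⟩

/-- The action of `B` on `M / p M`. -/
def s56eb_modp.act (b : B) : s56eb_modp p M →+ s56eb_modp p M :=
  QuotientAddGroup.map (s56eb_pM p M) (s56eb_pM p M) (DistribSMul.toAddMonoidHom M b)
    (s56eb_pM_le_comap p M b)

/-- The class of `m` in `M / p M`. -/
def s56eb_modp.cls (m : M) : s56eb_modp p M := (QuotientAddGroup.mk m : M ⧸ s56eb_pM p M)

theorem s56eb_modp.act_cls (b : B) (m : M) :
    s56eb_modp.act p M b (s56eb_modp.cls p M m) = s56eb_modp.cls p M (b • m) := rfl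

theorem s56eb_modp.cls_surjective : Function.Surjective (s56eb_modp.cls p M) :=
  QuotientAddGroup.mk_surjective

theorem s56eb_modp.cls_add (m m' : M) :
    s56eb_modp.cls p M (m + m') = s56eb_modp.cls p M m + s56eb_modp.cls p M m' := rfl

theorem s56eb_modp.cls_zero : s56eb_modp.cls p M 0 = 0 := rfl

instance s56eb_modp.instAct : DistribMulAction B (s56eb_modp p M) where
  smul b x := s56eb_modp.act p M b x
  one_smul x := by
    obtain ⟨m, rfl⟩ := s56eb_modp.cls_surjective p M x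
    show s56eb_modp.act p M 1 (s56eb_modp.cls p M m) = _
    rw [s56eb_modp.act_cls, one_smul]
  mul_smul b b' x := by
    obtain ⟨m, rfl⟩ := s56eb_modp.cls_surjective p M x
    show s56eb_modp.act p M (b * b') (s56eb_modp.cls p M m) =
      s56eb_modp.act p M b (s56eb_modp.act p M b' (s56eb_modp.cls p M m))
    rw [s56eb_modp.act_cls, s56eb_modp.act_cls, s56eb_modp.act_cls, mul_smul]
  smul_zero b := map_zero (s56eb_modp.act p M b)
  smul_add b x y := map_add (s56eb_modp.act p M b) x y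

/-- The projection `M → M / p M` as an equivariant map. -/
def s56eb_modp.proj : M →+[B] s56eb_modp p M where
  toFun := s56eb_modp.cls p M
  map_smul' _ _ := rfl
  map_zero' := rfl
  map_add' _ _ := rfl

theorem s56eb_modp.proj_surjective :
    Function.Surjective (s56eb_modp.proj p M : M →+[B] s56eb_modp p M) :=
  s56eb_modp.cls_surjective p M

theorem s56eb_modp.proj_eq_zero (m : M) :
    (s56eb_modp.proj p M : M →+[B] s56eb_modp p M) m = 0 ↔ ∃ m', m = p • m' :=
  (QuotientAddGroup.eq_zero_iff m).trans (s56eb_mem_pM p M)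

end ModP

/-- The arithmetic of the count. -/
theorem s56eb_arith {a0 a1 a2 e0 hQ hQ' c1 br f1 pt pi v d : ℕ} (l0 : a0 = e0)
    (l1 : a1 = hQ * c1) (l2 : a2 = hQ' * br) (hb : hQ' = c1) (hu : hQ * f1 = e0 * (pt * pi))
    (hl : pt ≤ br * f1) (ha : pi * v = d) (hf : 0 < f1) : a1 * v ≤ a0 * a2 * d := by
  have key : a1 * v * f1 ≤ a0 * a2 * d * f1 := by
    calc a1 * v * f1 = (hQ * f1) * c1 * v := by rw [l1]; ring
      _ = e0 * pt * c1 * (pi * v) := by rw [hu]; ring
      _ = e0 * pt * c1 * d := by rw [ha]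
      _ ≤ e0 * (br * f1) * c1 * d := by gcongr
      _ = a0 * a2 * d * f1 := by rw [l0, l2, hb]; ring
  exact Nat.le_of_mul_le_mul_right key hf

section Core

attribute [local instance] s56eb_actH0 s56eb_actH1 s56eb_actH2

variable {p : ℕ} [Fact p.Prime] {S : Finset Nat.Primes} {Δ : Type} [Group Δ] [Finite Δ]
  {π : GQ →* Δ} {χ : Δ →* (ZMod p)ˣ}

/-- The cardinal inequality behind `f ≤ 0`. -/
theorem s56eb_core (hFin : s56eg_Fin_stmt) (hFinE : s56eb_Fin_stmt) (hUnit : s56eb_Unit_stmt)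
    (hLow : s56eb_Low_stmt) (hIdem : s56eb_Idem_stmt) (hp2 : p ≠ 2) (hpS : pPrime p ∈ S)
    (hπ : s56eg_IsLev p S π χ) (B : Subgroup Δ) (hpB : ¬ p ∣ Nat.card B)
    {N : Type} [AddCommGroup N] [Module (ZMod p) N] [Module.Finite (ZMod p) N]
    (σ : Representation (ZMod p) B N) :
    finrank (ZMod p) ↥(continuousH1S S (s56eg_infl π (Representation.coind B.subtype σ))) +
        finrank (ZMod p) ↥(s56eb_Vp π B σ) ≤
      finrank (ZMod p) ↥(s56eg_infl π (Representation.coind B.subtype σ)).ρ.invariants +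
        finrank (ZMod p) (continuousH2S S (s56eg_infl π (Representation.coind B.subtype σ))) +
        finrank (ZMod p) ↥(Representation.coindV B.subtype σ) := by
  have hp : p.Prime := Fact.out
  have : NeZero p := ⟨hp.ne_zero⟩
  obtain ⟨ζ, hζ⟩ := HasEnoughRootsOfUnity.exists_primitiveRoot Qbar p
  have hlev := s56eb_isLev_level hπ
  have hsm := s56eb_TE_smooth S π hlev
  let E := s56eb_kumSES S hpS hζ π χ hπ.cyc
  have hπp : ∀ t, E.π t = p • t := fun t => s56eb_kumSES_π S hpS hζ π χ hπ.cyc t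
  have hi : ∀ (b : B) (t : s56eb_T p π χ), E.i (b • t) = b • E.i t := fun b t =>
    s56eb_kumSES_i_smulB S hpS hζ π χ hπ.cyc B b t
  -- the module `X = σ^*(1)`
  let X := s56eb_X σ (χ.comp B.subtype)
  have hX : ∀ x : X, p • x = 0 := fun x => s56eb_X.nsmul_eq_zero x
  -- (IDEM)
  obtain ⟨i0, i1, i2⟩ := hIdem p hp2 S hpS Δ π χ hπ B hpB X hX
  -- the Kummer sequence
  have l0 := s56eb_les_H0 (tl_levelsS S) X E hπp hi hX
  have l1 := s56eb_les_H1 (tl_levelsS S) X E hπp hi hpB hX hsm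
    (s56eb_modp.proj p (lvH0 (G := GQ) (s56eb_TE S π)))
    (s56eb_modp.proj_surjective p _) (s56eb_modp.proj_eq_zero p _)
  have l2 := s56eb_les_H2 (tl_levelsS S) X E hπp hi hpB hX hsm
    (s56eb_modp.proj p (lvH1 (tl_levelsS S) (s56eb_TE S π)))
    (s56eb_modp.proj_surjective p _) (s56eb_modp.proj_eq_zero p _)
  -- Herbrand
  have : Finite (lvH1 (tl_levelsS S) (s56eb_TE S π)) := hFinE p hp2 S hpS Δ π χ hπ
  have hb := s56emg_hx_herbrand X hpB hX
    (s56eb_modp.proj p (lvH1 (tl_levelsS S) (s56eb_TE S π)) : _ →+[B] _)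
    (s56eb_modp.proj_surjective p _) (s56eb_modp.proj_eq_zero p _)
  -- (UNIT), (LOW), (Arch)
  have hu := hUnit p hp2 S hpS Δ π χ hπ B hpB X hX
    (s56eb_modp p (lvH0 (G := GQ) (s56eb_TE S π)))
    (s56eb_modp.proj p (lvH0 (G := GQ) (s56eb_TE S π)))
    (s56eb_modp.proj_surjective p _) (s56eb_modp.proj_eq_zero p _)
  have hl := hLow p hp2 S hpS Δ π χ hπ B hpB X hX
  have ha := s56eb_arch π χ hπ.cyc B σ hp2
  have hf : 0 < Nat.card (X →+[B] s56eb_F1 p) := by
    have : Finite (s56eb_F1 p) := inferInstanceAs (Finite (ZMod p))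
    exact s56emg_hx_pos X
  -- the dictionary
  have : Module.Finite (ZMod p) ↥(Representation.coindV B.subtype σ) := by
    have : Module.Finite (ZMod p) (Δ → N) := Module.Finite.pi
    infer_instance
  obtain ⟨c0, c1, c2⟩ := s56eb_card_infl hFin hp2 hpS hπ (Representation.coind B.subtype σ)
  let e : tl_Act (s56eg_infl π (Representation.coind B.subtype σ)) ≃+
      s56eb_HomB B X (s56eb_T p π χ) := s56eb_twist π χ B σ
  have he : ∀ (g : GQ) (x : tl_Act (s56eg_infl π (Representation.coind B.subtype σ))),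
      e (g • x) = g • e x := fun g x => s56eb_twist_smul π χ B σ g x
  have t0 : Nat.card (lvH0 (G := GQ) (tl_Act (s56eg_infl π (Representation.coind B.subtype σ)))) =
      Nat.card (lvH0 (G := GQ) (s56eb_HomB B X (s56eb_T p π χ))) :=
    Nat.card_congr (s56eb_lvH0_congr (tl_levelsS S) e he).toEquiv
  have t1 : Nat.card (lvH1 (tl_levelsS S) (tl_Act (s56eg_infl π (Representation.coind B.subtype σ)))) =
      Nat.card (lvH1 (tl_levelsS S) (s56eb_HomB B X (s56eb_T p π χ))) :=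
    Nat.card_congr (s56eb_lvH1_congr (tl_levelsS S) e he).toEquiv
  have t2 : Nat.card (lvH2 (tl_levelsS S) (tl_Act (s56eg_infl π (Representation.coind B.subtype σ)))) =
      Nat.card (lvH2 (tl_levelsS S) (s56eb_HomB B X (s56eb_T p π χ))) :=
    Nat.card_congr (s56eb_lvH2_congr (tl_levelsS S) e he).toEquiv
  rw [t0, i0] at c0
  rw [t1, i1] at c1
  rw [t2, i2] at c2
  -- the count
  have key := s56eb_arith (c0.symm.trans l0) (c1.symm.trans l1) (c2.symm.trans l2) hb hu hl ha hf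
  rw [← pow_add, ← pow_add, ← pow_add] at key
  exact (Nat.pow_le_pow_iff_right hp.one_lt).1 key

end Core

/-- **Input (C) of [GW-EC]**: `f ≤ 0` on the base class, from the four seams of [EC-BASE]. -/
theorem s56eb_main (hFin : s56eg_Fin_stmt) (hFinE : s56eb_Fin_stmt) (hUnit : s56eb_Unit_stmt)
    (hLow : s56eb_Low_stmt) (hIdem : s56eb_Idem_stmt) : s56eg_C_stmt := by
  intro p _ hp2 S hpS Δ _ _ π χ hπ B _ hBp M _ _ _ ρ
  have hp : p.Prime := Fact.out
  have hpB : ¬ p ∣ Nat.card B := fun h =>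
    hp.one_lt.ne' (Nat.eq_one_of_dvd_coprimes hBp h (dvd_refl p))
  have key := s56eb_core hFin hFinE hUnit hLow hIdem hp2 hpS hπ B hpB (s56ei_res ρ B)
  have hinf := s56eba_resInf π (Representation.coind B.subtype (s56ei_res ρ B))
  unfold s56eg_f
  rw [hinf]
  change _ + (finrank (ZMod p) ↥(s56eb_Vp π B (s56ei_res ρ B)) : ℤ) ≤ 0
  omega

end Fermat.Agent.S56
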