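import Mathlib

/-!
# S56, [GW-EC], cell [EC-BASE]: the coefficient module `T_μ = Fun(Δ, μ_p)` (prefix `s56eb_`)

`π : G →* Δ` a homomorphism onto a (finite) group, `χ : Δ →* (ZMod p)ˣ` a character (application:
`G = Gal(ℚ̄/ℚ)`, `Δ = Gal(K/ℚ)`, `χ ∘ π` the mod `p` cyclotomic character, `μ_p ⊆ K`).

`s56eb_T p π χ` is the group of functions `Δ → ZMod p` with

* the action of `G`: `(g • φ) δ = χ (π g) * φ ((π g)⁻¹ * δ)`  (`= Hom(ℤ[Δ], μ_p)` with the
  conjugation action, i.e. `μ_p`-valued functions on `G / ker π`, i.e. the module coinduced from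
  `ker π`);
* the commuting right translation action of `Δ`: `(δ₀ • φ) δ = φ (δ * δ₀)` (restricted to every
  subgroup `B ≤ Δ` by Mathlib's instances).

Mathlib only.
-/

set_option autoImplicit false

namespace Fermat.Agent.S56

/-- The coefficient module `T_μ = Fun(Δ, μ_p)`. -/
def s56eb_T {G : Type*} {Δ : Type*} [Group G] [Group Δ] (p : ℕ) (_π : G →* Δ)
    (_χ : Δ →* (ZMod p)ˣ) : Type _ := Δ → ZMod p

namespace s56eb_T

variable {G : Type*} {Δ : Type*} [Group G] [Group Δ] {p : ℕ} {π : G →* Δ} {χ : Δ →* (ZMod p)ˣ}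

instance : AddCommGroup (s56eb_T p π χ) := inferInstanceAs (AddCommGroup (Δ → ZMod p))

instance : Module (ZMod p) (s56eb_T p π χ) := inferInstanceAs (Module (ZMod p) (Δ → ZMod p))

instance : FunLike (s56eb_T p π χ) Δ (ZMod p) := ⟨fun φ => φ, fun _ _ h => h⟩

@[ext] theorem ext {φ ψ : s56eb_T p π χ} (h : ∀ δ, φ δ = ψ δ) : φ = ψ := DFunLike.ext _ _ h

/-- Constructor. -/
def mk (f : Δ → ZMod p) : s56eb_T p π χ := f

@[simp] theorem mk_apply (f : Δ → ZMod p) (δ : Δ) : (mk f : s56eb_T p π χ) δ = f δ := rfl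

@[simp] theorem add_apply (φ ψ : s56eb_T p π χ) (δ : Δ) : (φ + ψ) δ = φ δ + ψ δ := rfl
@[simp] theorem zero_apply (δ : Δ) : (0 : s56eb_T p π χ) δ = 0 := rfl
@[simp] theorem neg_apply (φ : s56eb_T p π χ) (δ : Δ) : (-φ) δ = -φ δ := rfl
@[simp] theorem sub_apply (φ ψ : s56eb_T p π χ) (δ : Δ) : (φ - ψ) δ = φ δ - ψ δ := rfl
@[simp] theorem smul_apply (c : ZMod p) (φ : s56eb_T p π χ) (δ : Δ) : (c • φ) δ = c * φ δ := rfl
@[simp] theorem nsmul_apply (n : ℕ) (φ : s56eb_T p π χ) (δ : Δ) : (n • φ) δ = n • φ δ := rfl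

theorem sum_apply {ι : Type*} (s : Finset ι) (f : ι → s56eb_T p π χ) (δ : Δ) :
    (∑ i ∈ s, f i) δ = ∑ i ∈ s, f i δ :=
  Finset.sum_apply (M := fun _ : Δ => ZMod p) δ s f

/-- The action of `G`. -/
instance instActG : DistribMulAction G (s56eb_T p π χ) where
  smul g φ := mk fun δ => (χ (π g) : ZMod p) * φ ((π g)⁻¹ * δ)
  one_smul φ := by
    ext δ
    show (χ (π 1) : ZMod p) * φ ((π 1)⁻¹ * δ) = φ δ
    rw [map_one, map_one, inv_one, one_mul, Units.val_one, one_mul]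
  mul_smul g h φ := by
    ext δ
    show (χ (π (g * h)) : ZMod p) * φ ((π (g * h))⁻¹ * δ) =
      (χ (π g) : ZMod p) * ((χ (π h) : ZMod p) * φ ((π h)⁻¹ * ((π g)⁻¹ * δ)))
    rw [map_mul, map_mul, Units.val_mul, mul_inv_rev, mul_assoc, mul_assoc]
  smul_zero g := by
    ext δ
    show (χ (π g) : ZMod p) * (0 : ZMod p) = 0
    rw [mul_zero]
  smul_add g φ ψ := by
    ext δ
    show (χ (π g) : ZMod p) * (φ ((π g)⁻¹ * δ) + ψ ((π g)⁻¹ * δ)) = _
    rw [mul_add]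
    rfl

theorem smulG_apply (g : G) (φ : s56eb_T p π χ) (δ : Δ) :
    (g • φ) δ = (χ (π g) : ZMod p) * φ ((π g)⁻¹ * δ) := rfl

/-- The right translation action of `Δ`. -/
instance instActΔ : DistribMulAction Δ (s56eb_T p π χ) where
  smul δ₀ φ := mk fun δ => φ (δ * δ₀)
  one_smul φ := by
    ext δ
    show φ (δ * 1) = φ δ
    rw [mul_one]
  mul_smul a b φ := by
    ext δ
    show φ (δ * (a * b)) = φ (δ * a * b)
    rw [mul_assoc]
  smul_zero _ := rfl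
  smul_add _ _ _ := rfl

theorem smulΔ_apply (δ₀ : Δ) (φ : s56eb_T p π χ) (δ : Δ) : (δ₀ • φ) δ = φ (δ * δ₀) := rfl

theorem smulB_apply (B : Subgroup Δ) (b : B) (φ : s56eb_T p π χ) (δ : Δ) :
    (b • φ) δ = φ (δ * (b : Δ)) := rfl

instance instComm : SMulCommClass G Δ (s56eb_T p π χ) where
  smul_comm g δ₀ φ := by
    ext δ
    show (χ (π g) : ZMod p) * φ ((π g)⁻¹ * δ * δ₀) = (χ (π g) : ZMod p) * φ ((π g)⁻¹ * (δ * δ₀))
    rw [mul_assoc]

/-- `T_μ` is killed by `p`. -/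
theorem nsmul_eq_zero (φ : s56eb_T p π χ) : p • φ = 0 := by
  ext δ
  show p • φ δ = 0
  rw [nsmul_eq_mul, CharP.cast_eq_zero, zero_mul]

instance [Finite Δ] [NeZero p] : Finite (s56eb_T p π χ) :=
  inferInstanceAs (Finite (Δ → ZMod p))

end s56eb_T

end Fermat.Agent.S56
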